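import Fermat.Agent.S37.C0.Defs
import Fermat.Agent.S37.Statements
import Fermat.Agent.GAL.KLLevel

/-!
# S37, block C0: `RedInj` at level `N` from `RedInj` at level `2N` / `3N`
(pull back, push forward, degree `3` resp. `4`).
-/

set_option autoImplicit false
set_option maxHeartbeats 400000

noncomputable section

namespace Fermat.Agent.S37

open AlgebraicCurve ModularCurve Fermat.Agent.S24

section General

variable {K F F' : Type*} [Field K] [Field F] [Field F'] [Algebra K F] [Algebra K F']

open Fermat.Agent.S24.FF in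
theorem descent_sum_ramificationIndexAlong [IsAlgClosed K] [CharZero K] [IsFF1 K F']
    [HasPrincipalDivisors K F'] (φ : F →ₐ[K] F') (hfin : FiniteAlong K φ)
    (hφ : φ.toRingHom.IsIntegral) (v : Place K F) :
    ∑ w ∈ Place.fiberAlong φ hφ v, (w.ramificationIndexAlong φ : ℤ) = (finrankAlong K φ : ℤ) := by
  let _ := algebraAlong φ
  have := isScalarTower_along φ
  have : Module.Finite F F' := hfin
  exact HeckeInputs.sum_ramificationIndex v

open Fermat.Agent.S24.FF in
/-- `φ_* φ^* D = [F' : F] D`. -/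
theorem descent_pushforward_pullback [IsAlgClosed K] [CharZero K] [IsFF1 K F] [IsFF1 K F']
    [HasPrincipalDivisors K F'] (φ : F →ₐ[K] F') (hfin : FiniteAlong K φ)
    (hφ : φ.toRingHom.IsIntegral) (D : Divisor K F) :
    Divisor.pushforwardAlong φ hφ (Divisor.pullbackAlong φ hφ D) = finrankAlong K φ • D := by
  have key : (Divisor.pushforwardAlong φ hφ).comp (Divisor.pullbackAlong φ hφ) =
      (finrankAlong K φ) • AddMonoidHom.id (Divisor K F) := by
    apply Finsupp.addHom_ext
    intro v n
    rw [AddMonoidHom.comp_apply, Divisor.pullbackAlong_single, map_sum]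
    have h1 : ∀ w ∈ Place.fiberAlong φ hφ v,
        Divisor.pushforwardAlong φ hφ (Finsupp.single w (n * w.ramificationIndexAlong φ)) =
          Finsupp.single v (n * w.ramificationIndexAlong φ) := by
      intro w hw
      rw [Divisor.pushforwardAlong_single, HeckeInputs.inertiaDegAlong_eq_one,
        Place.mem_fiberAlong.mp hw]
      simp
    rw [Finset.sum_congr rfl h1, ← Finsupp.single_finsetSum, ← Finset.mul_sum,
      descent_sum_ramificationIndexAlong φ hfin hφ v]
    rw [AddMonoidHom.smul_apply, AddMonoidHom.id_apply, Finsupp.smul_single, nsmul_eq_mul, mul_comm]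
  exact DFunLike.congr_fun key D

theorem descent_mem_of_coprime {G : Type*} [AddCommGroup G] (S : AddSubgroup G) {a b : ℕ}
    (hab : Nat.Coprime a b) {D : G} (ha : a • D ∈ S) (hb : b • D ∈ S) : D ∈ S := by
  obtain ⟨u, v, huv⟩ := Nat.isCoprime_iff_coprime.mpr hab
  have h1 : D = u • (a • D) + v • (b • D) := by
    rw [← natCast_zsmul, ← natCast_zsmul, ← mul_zsmul, ← mul_zsmul, ← add_zsmul, huv, one_zsmul]
  rw [h1]
  exact S.add_mem (S.zsmul_mem ha u) (S.zsmul_mem hb v)

end General

variable (A : ValuationSubring Kbar) (N : ℕ) [NeZero N]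

/-- task S37-C0-Descent (1) -/
theorem redDiv_pullback_eq_zero (r : ℕ) [NeZero r] (hFC : FibreCompat A N r)
    {D : Divisor Kbar (FN N)} (hD : redDiv A N D = 0) :
    redDiv A (N * r) (Divisor.pullbackAlong (heckeAlphaBar Kbar N r)
      (HeckeInputs.alpha_integral N r) D) = 0 := by
  classical
  set Θ : Divisor Kbar (FN N) →+ (X A (N * r) →₀ ℤ) :=
    (redDiv A (N * r)).comp (Divisor.pullbackAlong (heckeAlphaBar Kbar N r)
      (HeckeInputs.alpha_integral N r)) with hΘ
  let θ : X A N → (X A (N * r) →₀ ℤ) := fun x =>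
    if h : ∃ P, red A N P = x then Θ (Finsupp.single h.choose 1) else 0
  have hθ : ∀ P, Θ (Finsupp.single P 1) = θ (red A N P) := by
    intro P
    have h : ∃ P', red A N P' = red A N P := ⟨P, rfl⟩
    simp only [θ, dif_pos h]
    exact hFC _ _ h.choose_spec.symm
  let Ψ : (X A N →₀ ℤ) →+ (X A (N * r) →₀ ℤ) :=
    Finsupp.liftAddHom fun x => (zmultiplesHom _ (θ x))
  have key : Θ = Ψ.comp (redDiv A N) := by
    apply Finsupp.addHom_ext
    intro P n
    show Θ (Finsupp.single P n) = Ψ (redDiv A N (Finsupp.single P n))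
    rw [redDiv_single]
    simp only [Ψ, Finsupp.liftAddHom_apply_single, zmultiplesHom_apply]
    rw [← hθ, ← map_zsmul, Finsupp.smul_single, smul_eq_mul, mul_one]
  show Θ D = 0
  rw [key, AddMonoidHom.comp_apply, hD, map_zero]

/-- task S37-C0-Descent (2) -/
theorem redInj_descent (r ℓ : ℕ) [NeZero r] (hFC : FibreCompat A N r) (hI : RedInj A (N * r) ℓ)
    (m : ℕ) (hm : ¬ ℓ ∣ m) (D : Divisor Kbar (FN N)) (hD : redDiv A N D = 0)
    (hmD : (m • D) ∈ Divisor.principal (K := Kbar) (F := FN N)) :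
    (finrankAlong Kbar (heckeAlphaBar Kbar N r) • D) ∈ Divisor.principal (K := Kbar) (F := FN N) := by
  have h1 := redDiv_pullback_eq_zero A N r hFC hD
  have h2 : m • (Divisor.pullbackAlong (heckeAlphaBar Kbar N r)
      (HeckeInputs.alpha_integral N r) D) ∈ Divisor.principal (K := Kbar) (F := FN (N * r)) := by
    rw [← map_nsmul]
    exact Divisor.isPrincipal_pullbackAlong _ _ hmD
  have h3 := hI m hm _ h1 h2
  have h4 : Divisor.pushforwardAlong (heckeAlphaBar Kbar N r) (HeckeInputs.alpha_integral N r)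
      (Divisor.pullbackAlong (heckeAlphaBar Kbar N r) (HeckeInputs.alpha_integral N r) D) ∈
      Divisor.principal (K := Kbar) (F := FN N) :=
    Divisor.isPrincipal_pushforwardAlong _ _ (HeckeInputs.alpha_finite N r)
      (HeckeInputs.alpha_normFormula N r) h3
  rw [← descent_pushforward_pullback (heckeAlphaBar Kbar N r) (HeckeInputs.alpha_finite N r)
    (HeckeInputs.alpha_integral N r) D]
  exact h4

theorem descent_finrankAlong (p : ℕ) [NeZero p] (hp : p.Prime) (hpN : ¬ p ∣ N) :
    finrankAlong Kbar (heckeAlphaBar Kbar N p) = p + 1 := by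
  have h := GAL.dedekindPsi_mul_finrank (dvd_mul_right N p)
  have e : dedekindPsi (N * p) = (p + 1) * dedekindPsi N := by
    rw [mul_comm N p, S20.Combinatorics.dedekindPsi_mul_of_not_dvd (NeZero.ne N) hp hpN]
  have h' : dedekindPsi N * finrankAlong Kbar (heckeAlphaBar Kbar N p) = dedekindPsi (N * p) := h
  rw [e, mul_comm] at h'
  exact Nat.eq_of_mul_eq_mul_right (GAL.dedekindPsi_pos N) h'

/-- task S37-C0-Descent (3) -/
theorem redInj_of_good (ℓ : ℕ) (hℓ : ℓ.Prime) (hℓN : ¬ ℓ ∣ N)
    (H : ∀ (M : ℕ) [NeZero M], ¬ ℓ ∣ M → GoodBase M ℓ → RedInj A M ℓ)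
    (hFC2 : FibreCompat A N 2) (hFC3 : FibreCompat A N 3) : RedInj A N ℓ := by
  by_cases h5 : 5 ≤ ℓ
  · exact H N hℓN (Or.inl h5)
  have h23 : ℓ = 2 ∨ ℓ = 3 := by
    have hlt : ℓ < 5 := not_le.mp h5
    have h2 := hℓ.two_le
    interval_cases ℓ
    · exact Or.inl rfl
    · exact Or.inr rfl
    · exact absurd hℓ (by norm_num)
  rcases h23 with rfl | rfl
  · by_cases h3 : 3 ∣ N
    · exact H N hℓN (Or.inr (Or.inr ⟨rfl, h3⟩))
    · have hM : ¬ 2 ∣ N * 3 := by
        intro h
        rcases (Nat.Prime.dvd_mul Nat.prime_two).mp h with h | h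
        · exact hℓN h
        · exact absurd h (by norm_num)
      have hI := H (N * 3) hM (Or.inr (Or.inr ⟨rfl, dvd_mul_left 3 N⟩))
      intro m hm D hD hmD
      have h4 := redInj_descent A N 3 2 hFC3 hI m hm D hD hmD
      rw [descent_finrankAlong N 3 Nat.prime_three h3] at h4
      refine descent_mem_of_coprime _ (a := 3 + 1) (b := m) ?_ h4 hmD
      have : Nat.Coprime 2 m := (Nat.Prime.coprime_iff_not_dvd Nat.prime_two).2 hm
      exact Nat.Coprime.pow_left 2 this
  · by_cases h2 : 2 ∣ N
    · exact H N hℓN (Or.inr (Or.inl ⟨rfl, h2⟩))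
    · have hM : ¬ 3 ∣ N * 2 := by
        intro h
        rcases (Nat.Prime.dvd_mul Nat.prime_three).mp h with h | h
        · exact hℓN h
        · exact absurd h (by norm_num)
      have hI := H (N * 2) hM (Or.inr (Or.inl ⟨rfl, dvd_mul_left 2 N⟩))
      intro m hm D hD hmD
      have h4 := redInj_descent A N 2 3 hFC2 hI m hm D hD hmD
      rw [descent_finrankAlong N 2 Nat.prime_two h2] at h4
      refine descent_mem_of_coprime _ (a := 2 + 1) (b := m) ?_ h4 hmD
      exact (Nat.Prime.coprime_iff_not_dvd Nat.prime_three).2 hm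

end Fermat.Agent.S37

end
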