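import Mathlib
import Fermat.Agent.S18.Chart.Const

/-!
# S37, block C0, abstract lemmas for `Assemble.lean` (task S37-C0-Asm, helper157).

* `C0.ideal_eq_top_of_forall_eval_ne_zero` : an ideal of `k[X]` (`k` algebraically closed) without
  common zero is `⊤`
* `C0.IntOver ι x b` : `b` is integral over `ι(R)[x]`; functoriality; passage from `x` to `x⁻¹`
* `C0.exists_algebraMap_of_intOver` : integral over `k[x]` and `k[x⁻¹]` implies constant
* `C0.mapDomain_apply_eq_sum_filter`
-/

set_option autoImplicit false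

noncomputable section

namespace Fermat.Agent.S37.C0

open Polynomial

/-- an ideal of `k[X]` without common zero is everything -/
theorem ideal_eq_top_of_forall_eval_ne_zero {k : Type*} [Field k] [IsAlgClosed k] (I : Ideal k[X])
    (h : ∀ c : k, ∃ p ∈ I, p.eval c ≠ 0) : I = ⊤ := by
  obtain ⟨g, rfl⟩ := (IsPrincipalIdealRing.principal I).principal
  change Ideal.span {g} = ⊤
  rw [Ideal.span_singleton_eq_top]
  have key : ∀ c : k, g.eval c ≠ 0 := by
    intro c hc
    obtain ⟨p, hp, hpc⟩ := h c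
    obtain ⟨q, rfl⟩ := Ideal.mem_span_singleton'.mp hp
    exact hpc (by rw [eval_mul, hc, mul_zero])
  by_contra hu
  have hd : g.degree ≠ 0 := by
    intro hd
    exact hu (isUnit_iff_degree_eq_zero.mpr hd)
  obtain ⟨c, hc⟩ := IsAlgClosed.exists_root g hd
  exact key c hc

/-! ## integrality over `ι(R)[x]` -/

section IntOver

variable {R R' S S' : Type*} [CommRing R] [CommRing R'] [CommRing S] [CommRing S']

/-- `b` is integral over `ι(R)[x]` -/
def IntOver (ι : R →+* S) (x b : S) : Prop := (eval₂RingHom ι x).IsIntegralElem b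

theorem comp_eval₂RingHom (φ : S →+* S') (ι : R →+* S) (x : S) :
    φ.comp (eval₂RingHom ι x) = eval₂RingHom (φ.comp ι) (φ x) := by
  apply Polynomial.ringHom_ext
  · intro a
    simp
  · simp

theorem IntOver.map (φ : S →+* S') {ι : R →+* S} {x b : S} (h : IntOver ι x b) :
    IntOver (φ.comp ι) (φ x) (φ b) := by
  obtain ⟨P, hP, hPb⟩ := h
  refine ⟨P, hP, ?_⟩
  rw [← comp_eval₂RingHom, ← hom_eval₂, hPb, map_zero]

theorem IntOver.of_map {φ : S →+* S'} (hφ : Function.Injective φ) {ι : R →+* S} {x b : S}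
    (h : IntOver (φ.comp ι) (φ x) (φ b)) : IntOver ι x b := by
  obtain ⟨P, hP, hPb⟩ := h
  refine ⟨P, hP, hφ ?_⟩
  rw [← comp_eval₂RingHom, ← hom_eval₂] at hPb
  rw [hPb, map_zero]

theorem IntOver.of_comp (π : R →+* R') {ι : R' →+* S} {x b : S} (h : IntOver (ι.comp π) x b) :
    IntOver ι x b := by
  obtain ⟨P, hP, hPb⟩ := h
  refine ⟨P.map (mapRingHom π), hP.map _, ?_⟩
  rw [eval₂_map]
  have : (eval₂RingHom ι x).comp (mapRingHom π) = eval₂RingHom (ι.comp π) x := by
    apply Polynomial.ringHom_ext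
    · intro a
      simp
    · simp
  rw [this]
  exact hPb

/-- transport of integrality along ring homs with comparable ranges -/
theorem isIntegralElem_of_forall_exists (f : R →+* S) (g : R' →+* S) (h : ∀ r, ∃ r', g r' = f r)
    {y : S} (hy : f.IsIntegralElem y) : g.IsIntegralElem y := by
  obtain ⟨P, hP, hPy⟩ := hy
  have hl : P.map f ∈ lifts g := by
    rw [lifts_iff_coeff_lifts]
    intro n
    rw [coeff_map]
    exact h _
  obtain ⟨Q, hQ, -, hQm⟩ := lifts_and_natDegree_eq_and_monic hl (hP.map f)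
  refine ⟨Q, hQm, ?_⟩
  rw [← eval_map, hQ, eval_map, hPy]

end IntOver

section Inv

variable {R F : Type*} [CommRing R] [Field F]

theorem eval₂_mul_inv_pow (ι : R →+* F) {x : F} (hx0 : x ≠ 0) (M : ℕ) (g : R[X])
    (hg : g.natDegree ≤ M) : eval₂ ι x g * x⁻¹ ^ M = eval₂ ι x⁻¹ (reflect M g) := by
  let _ : Invertible x⁻¹ := invertibleOfNonzero (inv_ne_zero hx0)
  have := eval₂_reflect_mul_pow ι x⁻¹ M (reflect M g) (natDegree_reflect_le.trans (by simp [hg]))
  rw [invOf_eq_inv, inv_inv, reflect_reflect] at this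
  exact this

/-- gluing: integral over `R[x]` implies `x⁻¹ ^ m * b` integral over `R[x⁻¹]`, `m` large -/
theorem IntOver.exists_inv_pow_mul {ι : R →+* F} {x b : F} (hx0 : x ≠ 0) (h : IntOver ι x b) :
    ∃ m : ℕ, IntOver ι x⁻¹ (x⁻¹ ^ m * b) := by
  obtain ⟨P, hP, hPb⟩ := h
  set M : ℕ := (Finset.range (P.natDegree + 1)).sup (fun i => (P.coeff i).natDegree) with hM
  refine ⟨M, ?_⟩
  set PE : F[X] := P.map (eval₂RingHom ι x) with hPE
  have hPEm : PE.Monic := hP.map _
  have hPEdeg : PE.natDegree = P.natDegree := hP.natDegree_map _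
  have hPEy : eval₂ (RingHom.id F) b PE = 0 := by
    rw [hPE, eval₂_map]
    exact hPb
  set s : F := x⁻¹ ^ M with hs
  have hroot := scaleRoots_eval₂_eq_zero (RingHom.id F) (s := s) hPEy
  have hmon : (scaleRoots PE s).Monic := (monic_scaleRoots_iff s).mpr hPEm
  have hl : scaleRoots PE s ∈ lifts (eval₂RingHom ι x⁻¹) := by
    rw [lifts_iff_coeff_lifts]
    intro i
    rw [coeff_scaleRoots, hPEdeg]
    rcases lt_trichotomy i P.natDegree with hi | hi | hi
    · have hle : (P.coeff i).natDegree ≤ M * (P.natDegree - i) := by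
        have h1 : (P.coeff i).natDegree ≤ M :=
          Finset.le_sup (f := fun i => (P.coeff i).natDegree) (Finset.mem_range.mpr (by omega))
        have h2 : 1 ≤ P.natDegree - i := by omega
        calc (P.coeff i).natDegree ≤ M := h1
          _ = M * 1 := (mul_one M).symm
          _ ≤ M * (P.natDegree - i) := Nat.mul_le_mul_left M h2
      rw [hs, ← pow_mul, hPE, coeff_map]
      exact ⟨reflect (M * (P.natDegree - i)) (P.coeff i), (eval₂_mul_inv_pow ι hx0 _ _ hle).symm⟩
    · subst hi
      rw [Nat.sub_self, pow_zero, mul_one, ← hPEdeg]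
      have : PE.coeff PE.natDegree = 1 := hPEm
      rw [this]
      exact ⟨1, map_one _⟩
    · rw [coeff_eq_zero_of_natDegree_lt (by omega), zero_mul]
      exact ⟨0, map_zero _⟩
  obtain ⟨Q, hQ, -, hQm⟩ := lifts_and_natDegree_eq_and_monic hl hmon
  refine ⟨Q, hQm, ?_⟩
  rw [← eval_map, hQ, eval, ← hroot]
  rfl

end Inv

/-! ## constants -/

section Const

variable {k L : Type*} [Field k] [Field L] [Algebra k L]

theorem IntOver.isIntegral_adjoin {x u : L} (h : IntOver (algebraMap k L) x u) :
    IsIntegral (Algebra.adjoin k {x}) u := by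
  refine isIntegralElem_of_forall_exists _ _ (fun p => ?_) h
  exact ⟨⟨aeval x p, aeval_mem_adjoin_singleton k x⟩, rfl⟩

open IntermediateField IntermediateField.algebraAdjoinAdjoin in
/-- integral over `k[x]` and over `k[x⁻¹]` implies algebraic over `k` -/
theorem isAlgebraic_of_isIntegral_adjoin {x z : L} (hx : Transcendental k x)
    (i₁ : IsIntegral (Algebra.adjoin k {x}) z) (i₂ : IsIntegral (Algebra.adjoin k {x⁻¹}) z) :
    IsAlgebraic k z := by
  have hzE : IsIntegral k⟮x⟯ z := i₁.tower_top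
  have hl : minpoly k⟮x⟯ z ∈ Polynomial.lifts (algebraMap k k⟮x⟯) := by
    rw [Polynomial.lifts_iff_coeff_lifts]
    intro i
    obtain ⟨c, hc⟩ := S18.exists_algebraMap_of_mem_adjoin_inv hx
      (S18.coeff_minpoly_mem_adjoin hx i₁ k⟮x⟯ rfl i)
      (S18.coeff_minpoly_mem_adjoin (S18.transcendental_inv hx) i₂ k⟮x⟯
        (S18.adjoin_simple_inv_eq x).symm i)
    exact ⟨c, Subtype.ext hc⟩
  obtain ⟨q, hq⟩ := hl
  refine ⟨q, ?_, ?_⟩
  · rintro rfl
    apply minpoly.ne_zero hzE
    rw [← hq]
    simp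
  · have := minpoly.aeval k⟮x⟯ z
    rw [← hq] at this
    simpa [aeval_map_algebraMap] using this

/-- integral over `k[x]` and over `k[x⁻¹]` implies constant (`k` algebraically closed) -/
theorem exists_algebraMap_of_intOver [IsAlgClosed k] {x u : L} (hx : Transcendental k x)
    (h₁ : IntOver (algebraMap k L) x u) (h₂ : IntOver (algebraMap k L) x⁻¹ u) :
    ∃ κ : k, u = algebraMap k L κ := by
  have h := isAlgebraic_of_isIntegral_adjoin hx h₁.isIntegral_adjoin h₂.isIntegral_adjoin
  have hint : IsIntegral k u := h.isIntegral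
  refine ⟨-(minpoly k u).coeff 0, ?_⟩
  have hq : (minpoly k u).leadingCoeff = 1 := minpoly.monic hint
  have hd : (minpoly k u).degree = 1 :=
    IsAlgClosed.degree_eq_one_of_irreducible k (minpoly.irreducible hint)
  have this : aeval u (minpoly k u) = 0 := minpoly.aeval k u
  rw [eq_X_add_C_of_degree_eq_one hd, hq, C_1, one_mul, aeval_add, aeval_X, aeval_C,
    add_eq_zero_iff_eq_neg] at this
  rw [map_neg]
  exact this

end Const

/-! ## `mapDomain` -/

theorem mapDomain_apply_eq_sum_filter {α β : Type*} (f : α → β) (D : α →₀ ℤ) (x : β)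
    [DecidablePred (fun P => f P = x)] :
    Finsupp.mapDomain f D x = ∑ P ∈ D.support.filter (fun P => f P = x), D P := by
  classical
  rw [Finsupp.mapDomain, Finsupp.sum_apply, Finsupp.sum, Finset.sum_filter]
  refine Finset.sum_congr rfl fun P _ => ?_
  rw [Finsupp.single_apply]

end Fermat.Agent.S37.C0

end
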