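import Fermat.Agent.S37.C0.Basic
import Fermat.Agent.S37.C0.AsmAbs

/-!
# S37, block C0: `RedConst` from the tube lemma and LF  (task S37-C0-Asm, helper157)

`redConst_of_lf : QAFin → QAInf → TubeStmt j → TubeStmt (1/j) → LF → RedConst`.
-/

set_option autoImplicit false
set_option linter.unusedSectionVars false

noncomputable section

namespace Fermat.Agent.S37

open AlgebraicCurve ModularCurve Fermat.Agent.S24

variable {A : ValuationSubring Kbar} {N : ℕ}

namespace C0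

/-! ## integrality and expansions -/

variable (A N) in
/-- the constants `A → FN N` -/
def iotaF : A →+* FN N := (algebraMap Kbar (FN N)).comp A.subtype

theorem eval₂_iotaF (y : FN N) (p : Polynomial A) :
    Polynomial.eval₂ (iotaF A N) y p = Polynomial.aeval y (p.map A.subtype) := by
  rw [Polynomial.aeval_def, Polynomial.eval₂_map]
  rfl

theorem intOver_iff_mem_BY {y b : FN N} : IntOver (iotaF A N) y b ↔ b ∈ BY A N y := by
  rw [mem_BY_iff]
  constructor
  · intro h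
    refine isIntegralElem_of_forall_exists _ _ (fun p => ?_) h
    exact ⟨⟨_, aeval_mem_RY p⟩, (eval₂_iotaF y p).symm⟩
  · intro h
    refine isIntegralElem_of_forall_exists _ _ (fun r => ?_) h
    obtain ⟨p, hp⟩ := exists_aeval_of_mem_RY r.2
    exact ⟨p, (eval₂_iotaF y p).trans hp.symm⟩

/-- the reduction of a function integral over `A[y]` is integral over `k[ȳ]` -/
theorem intOver_rho {y b : FN N} {Yy Yb : LaurentSeries A} (hy : HasIntExp A N y Yy)
    (hYb : HasIntExp A N b Yb) (hb : b ∈ BY A N y) :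
    IntOver (algebraMap (kA A) (LaurentSeries (kA A))) (rho A Yy) (rho A Yb) := by
  have h1 : IntOver (iotaF A N) y b := intOver_iff_mem_BY.mpr hb
  have h2 := h1.map (modularFunctionFieldBar N).val.toRingHom
  have e : ((modularFunctionFieldBar N).val.toRingHom).comp (iotaF A N) =
      (coeffMap A.subtype).comp (algebraMap A (LaurentSeries A)) :=
    RingHom.ext fun a => (HasIntExp.const' N a).symm
  rw [e] at h2
  have h3 : IntOver ((coeffMap A.subtype).comp (algebraMap A (LaurentSeries A)))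
      (coeffMap A.subtype Yy) (coeffMap A.subtype Yb) := by
    rw [show coeffMap A.subtype Yy = _ from hy, show coeffMap A.subtype Yb = _ from hYb]
    exact h2
  have h4 := IntOver.of_map (C0.coeffMap_injective (f := A.subtype) Subtype.val_injective) h3
  have h5 := h4.map (rhoHom A)
  have e2 : (rhoHom A).comp (algebraMap A (LaurentSeries A)) =
      (algebraMap (kA A) (LaurentSeries (kA A))).comp (IsLocalRing.residue A) :=
    RingHom.ext fun a => C0.coeffMap_algebraMap _ a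
  rw [e2] at h5
  exact h5.of_comp _

/-! ## the ideal -/

/-- the ideal of the `p ∈ k[X]` with `p(ȳ) f̄ ∈ ρ(BY)` (`f̄ = ρ Y₁ / ρ Y₂`) -/
def tubeIdeal {y : FN N} {Yy : LaurentSeries A} (hy : HasIntExp A N y Yy)
    (Y₁ Y₂ : LaurentSeries A) : Ideal (Polynomial (kA A)) where
  carrier := {p | ∃ (b : FN N) (Yb : LaurentSeries A), b ∈ BY A N y ∧ HasIntExp A N b Yb ∧
    Polynomial.aeval (rho A Yy) p * rho A Y₁ = rho A Yb * rho A Y₂}
  add_mem' := by
    rintro p q ⟨b, Yb, hb, hYb, h⟩ ⟨b', Yb', hb', hYb', h'⟩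
    exact ⟨b + b', Yb + Yb', add_mem hb hb', hYb.add hYb',
      by rw [map_add, add_mul, h, h', rho_add, add_mul]⟩
  zero_mem' := ⟨0, 0, zero_mem _, HasIntExp.zero, by rw [map_zero, zero_mul, rho_zero, zero_mul]⟩
  smul_mem' := by
    rintro q p ⟨b, Yb, hb, hYb, h⟩
    obtain ⟨q', rfl⟩ := Polynomial.map_surjective _ IsLocalRing.residue_surjective q
    refine ⟨Polynomial.aeval y (q'.map A.subtype) * b, Polynomial.aeval Yy q' * Yb,
      mul_mem (aeval_mem_BY q') hb, (hy.aeval q').mul hYb, ?_⟩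
    rw [smul_eq_mul, map_mul, mul_assoc, h, rho_mul, rho_aeval, mul_assoc]

theorem mem_tubeIdeal {y : FN N} {Yy : LaurentSeries A} (hy : HasIntExp A N y Yy)
    (Y₁ Y₂ : LaurentSeries A) (p : Polynomial (kA A)) :
    p ∈ tubeIdeal hy Y₁ Y₂ ↔ ∃ (b : FN N) (Yb : LaurentSeries A), b ∈ BY A N y ∧
      HasIntExp A N b Yb ∧ Polynomial.aeval (rho A Yy) p * rho A Y₁ = rho A Yb * rho A Y₂ :=
  Iff.rfl

/-! ## class sums -/

variable [NeZero N]

open Classical in
theorem sum_tube_fin {D : Divisor Kbar (FN N)} (hD : redDiv A N D = 0) (c : kA A)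
    (e : BY A N (jF N) → kA A) :
    ∑ P ∈ D.support.filter (fun P => Tube A N (jF N) c P ∧ eps A N (jF N) P = e), D P = 0 := by
  by_cases hc : e ⟨jF N, self_mem_BY⟩ = c
  · have h0 : Finsupp.mapDomain (red A N) D (Sum.inl e) = 0 := by
      rw [← redDiv_apply, hD]
      rfl
    rw [mapDomain_apply_eq_sum_filter] at h0
    rw [← h0]
    refine Finset.sum_congr (Finset.filter_congr fun P _ => ?_) fun _ _ => rfl
    constructor
    · rintro ⟨hT, rfl⟩
      exact red_eq_inl_eps hT.1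
    · intro h
      have hP : InFin A N P := by
        by_contra hP
        rw [red_eq_inr_eps hP] at h
        exact absurd h (by simp)
      rw [red_eq_inl_eps hP] at h
      have he := Sum.inl.inj h
      refine ⟨⟨hP, ?_⟩, he⟩
      rw [← hc, ← he]
      rfl
  · rw [Finset.filter_false_of_mem, Finset.sum_empty]
    rintro P _ ⟨hT, rfl⟩
    exact hc hT.2

open Classical in
theorem sum_tube_inf {D : Divisor Kbar (FN N)} (hD : redDiv A N D = 0)
    (e : BY A N (jF N)⁻¹ → kA A) :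
    ∑ P ∈ D.support.filter (fun P => Tube A N (jF N)⁻¹ 0 P ∧ eps A N (jF N)⁻¹ P = e), D P = 0 := by
  have h0 : Finsupp.mapDomain (red A N) D (Sum.inr e) = 0 := by
    rw [← redDiv_apply, hD]
    rfl
  rw [mapDomain_apply_eq_sum_filter] at h0
  rw [← h0]
  refine Finset.sum_congr (Finset.filter_congr fun P _ => ?_) fun _ _ => rfl
  constructor
  · rintro ⟨hT, rfl⟩
    exact red_eq_inr_eps ((not_inFin_iff P).mpr hT)
  · intro h
    have hP : ¬ InFin A N P := by
      intro hP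
      rw [red_eq_inl_eps hP] at h
      exact absurd h (by simp)
    rw [red_eq_inr_eps hP] at h
    exact ⟨(not_inFin_iff P).mp hP, Sum.inr.inj h⟩

/-! ## quotients of integral functions -/

open IntermediateField IntermediateField.algebraAdjoinAdjoin in
/-- every function is a quotient of functions integral over `ℚ̄[j]` -/
theorem exists_integral_quot (f : FN N) (hf : f ≠ 0) :
    ∃ z₁ z₂ : FN N, z₁ ≠ 0 ∧ z₂ ≠ 0 ∧ IsIntegral (LFin N) z₁ ∧ IsIntegral (LFin N) z₂ ∧
      f * z₂ = z₁ := by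
  have := Export.finiteDimensional N
  have h1 : IsAlgebraic Kbar⟮jF N⟯ f := Algebra.IsAlgebraic.isAlgebraic f
  have h2 : IsAlgebraic (Algebra.adjoin Kbar {jF N}) f :=
    (IsFractionRing.isAlgebraic_iff (Algebra.adjoin Kbar {jF N}) Kbar⟮jF N⟯ (FN N)).mpr h1
  obtain ⟨y, hy0, hy⟩ := h2.exists_integral_multiple
  have hy0' : (y : FN N) ≠ 0 := fun h => hy0 (Subtype.ext h)
  refine ⟨y • f, (y : FN N), ?_, hy0', hy,
    isIntegral_algebraMap (R := Algebra.adjoin Kbar {jF N}) (x := y), ?_⟩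
  · rw [Algebra.smul_def]
    exact mul_ne_zero hy0' hf
  · rw [Algebra.smul_def, mul_comm]
    rfl

/-! ## the core: the reduction of `f = a₁ / a₂` is a constant -/

theorem exists_const (hTF : TubeStmt A N (jF N)) (hTI : TubeStmt A N (jF N)⁻¹) (hLF : LF A N)
    {f a₁ a₂ : FN N} {Y₁ Y₂ : LaurentSeries A} (hf : f * a₂ = a₁) (h₁ : HasIntExp A N a₁ Y₁)
    (h₂ : HasIntExp A N a₂ Y₂) (hρ₁ : rho A Y₁ ≠ 0) (hρ₂ : rho A Y₂ ≠ 0)
    {D : Divisor Kbar (FN N)} (hD : ∀ v, D v = v.ord f) (hD0 : redDiv A N D = 0) :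
    ∃ κ : kA A, rho A Y₁ = algebraMap (kA A) (LaurentSeries (kA A)) κ * rho A Y₂ := by
  have := isAlgClosed_kA A
  have hj := hasIntExp_jF A N
  have hw := hasIntExp_jF_inv A N
  -- the finite chart
  have hIF : tubeIdeal hj Y₁ Y₂ = ⊤ := by
    apply ideal_eq_top_of_forall_eval_ne_zero
    intro c
    obtain ⟨g, b, Yb, hg, hb, hYb, h⟩ := hTF _ hj f a₁ a₂ Y₁ Y₂ hf h₁ h₂ hρ₁ hρ₂ D hD c
      (fun P hP => hLF.1 P hP.1) (sum_tube_fin hD0 c)
    exact ⟨g.map (IsLocalRing.residue A), ⟨b, Yb, hb, hYb, h⟩, hg⟩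
  obtain ⟨b, Yb, hb, hYb, h⟩ := (mem_tubeIdeal hj Y₁ Y₂ 1).mp (hIF ▸ Submodule.mem_top)
  rw [map_one, one_mul] at h
  -- the chart at infinity
  have hj0 : jF N ≠ 0 := fun h0 => Formal.transcendental_jF N (h0 ▸ isAlgebraic_zero)
  obtain ⟨m, hm⟩ := (intOver_iff_mem_BY.mpr hb).exists_inv_pow_mul hj0
  rw [intOver_iff_mem_BY] at hm
  have hII : tubeIdeal hw Y₁ Y₂ = ⊤ := by
    apply ideal_eq_top_of_forall_eval_ne_zero
    intro c
    by_cases hc : c = 0
    · subst hc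
      obtain ⟨g, b', Yb', hg, hb', hYb', h'⟩ := hTI _ hw f a₁ a₂ Y₁ Y₂ hf h₁ h₂ hρ₁ hρ₂ D hD 0
        (fun P hP => hLF.2 P hP) (sum_tube_inf hD0)
      exact ⟨g.map (IsLocalRing.residue A), ⟨b', Yb', hb', hYb', h'⟩, hg⟩
    · refine ⟨Polynomial.X ^ m, ⟨(jF N)⁻¹ ^ m * b, (S28.QEPMid.jInvZ A) ^ m * Yb, hm,
        (hw.pow m).mul hYb, ?_⟩, ?_⟩
      · rw [map_pow, Polynomial.aeval_X, h, rho_mul, rho_pow, mul_assoc]
      · rw [Polynomial.eval_pow, Polynomial.eval_X]
        exact pow_ne_zero m hc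
  obtain ⟨b', Yb', hb', hYb', h'⟩ := (mem_tubeIdeal hw Y₁ Y₂ 1).mp (hII ▸ Submodule.mem_top)
  rw [map_one, one_mul] at h'
  -- constants
  have hu : rho A Yb = rho A Yb' := mul_right_cancel₀ hρ₂ (h.symm.trans h')
  have i₁ := intOver_rho hj hYb hb
  have i₂ := intOver_rho hw hYb' hb'
  rw [rho_jqModC] at i₁
  rw [rho_jInvZ, ← hu] at i₂
  obtain ⟨κ, hκ⟩ := exists_algebraMap_of_intOver (C0.transcendental_jqModC (kA A)) i₁ i₂
  exact ⟨κ, by rw [h, hκ]⟩

end C0

variable (A N) [NeZero N]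

/-- **task S37-C0-Asm**: `RedConst` from the tube lemma and LF. -/
theorem redConst_of_lf (hQF : QAFin A N) (hQI : QAInf A N)
    (hTF : TubeStmt A N (jF N)) (hTI : TubeStmt A N (jF N)⁻¹) (hLF : LF A N) : RedConst A N := by
  intro f hf D hD hD0
  obtain ⟨z₁, z₂, hz₁, hz₂, hi₁, hi₂, hfz⟩ := C0.exists_integral_quot f hf
  obtain ⟨c₁, a₁, Y₁, hc₁, hza₁, -, h₁, hρ₁⟩ := hQF.2 z₁ hz₁ hi₁
  obtain ⟨c₂, a₂, Y₂, hc₂, hza₂, -, h₂, hρ₂⟩ := hQF.2 z₂ hz₂ hi₂
  have ha₁ : a₁ ≠ 0 := by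
    intro h0
    apply hρ₁
    rw [(h₁.eq_zero_iff).mp h0, rho_zero]
  have ha₂ : a₂ ≠ 0 := by
    intro h0
    apply hρ₂
    rw [(h₂.eq_zero_iff).mp h0, rho_zero]
  have hC₁ : algebraMap Kbar (FN N) c₁ ≠ 0 := by simpa using hc₁
  have hC₂ : algebraMap Kbar (FN N) c₂ ≠ 0 := by simpa using hc₂
  have hfa : f = algebraMap Kbar (FN N) (c₁ / c₂) * (a₁ / a₂) := by
    rw [map_div₀]
    rw [hza₁, hza₂] at hfz
    field_simp
    linear_combination hfz
  have hD' : ∀ v, D v = v.ord (a₁ / a₂) := by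
    intro v
    rw [hD v, hfa, v.ord_mul (by simpa using div_ne_zero hc₁ hc₂) (div_ne_zero ha₁ ha₂),
      FF.ord_algebraMap, zero_add]
  obtain ⟨κ, hκ⟩ := C0.exists_const hTF hTI hLF (div_mul_cancel₀ a₁ ha₂) h₁ h₂ hρ₁ hρ₂ hD' hD0
  have hκ0 : κ ≠ 0 := by
    rintro rfl
    apply hρ₁
    rw [hκ, map_zero, zero_mul]
  obtain ⟨a, rfl⟩ := IsLocalRing.residue_surjective κ
  have ha0 : (a : Kbar) ≠ 0 := by
    intro h0
    apply hκ0
    have : a = 0 := Subtype.ext h0
    rw [this, map_zero]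
  have hCa : algebraMap Kbar (FN N) (a : Kbar) ≠ 0 := by simpa using ha0
  have hQ : HasIntExp A N (algebraMap Kbar (FN N) (a : Kbar) * a₂) (HahnSeries.single 0 a * Y₂) :=
    (HasIntExp.const N a).mul h₂
  have hP' : coeffMap A.subtype Y₁ ∈ modularFunctionFieldBar N := by
    rw [show coeffMap A.subtype Y₁ = _ from h₁]
    exact a₁.2
  have hQ' : coeffMap A.subtype (HahnSeries.single 0 a * Y₂) ∈ modularFunctionFieldBar N := by
    rw [show coeffMap A.subtype (HahnSeries.single 0 a * Y₂) = _ from hQ]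
    exact Subtype.property _
  refine ⟨c₁ / c₂ * a, Y₁, HahnSeries.single 0 a * Y₂, hP', hQ', ?_, ?_, ?_, ?_⟩
  · exact mul_ne_zero (div_ne_zero hc₁ hc₂) ha0
  · rw [hκ, rho_mul, rho_single, C0.algebraMap_eq_single]
  · rw [rho_mul, rho_single, ← C0.algebraMap_eq_single, ← hκ]
    exact hρ₁
  · have e₁ : (⟨coeffMap A.subtype Y₁, hP'⟩ : modularFunctionFieldBar N) = a₁ := Subtype.ext h₁
    have e₂ : (⟨coeffMap A.subtype (HahnSeries.single 0 a * Y₂), hQ'⟩ : modularFunctionFieldBar N) =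
        algebraMap Kbar (FN N) (a : Kbar) * a₂ := Subtype.ext hQ
    rw [e₁, e₂, hfa, map_mul]
    field_simp

end Fermat.Agent.S37

end
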