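import Fermat.Agent.S37.C0.Defs
import Fermat.Agent.S37.Sep
import Fermat.Agent.S37.Val

/-!
# S37, block C0, task S37-C0-Fibre: fibre compatibility

The reduction of the fibre of `X₀(N r) → X₀(N)` over a place `P` depends only on the reduction
of `P`.
-/

set_option autoImplicit false

noncomputable section

namespace Fermat.Agent.S37

open AlgebraicCurve ModularCurve Fermat.Agent.S24

/-! ### general lemmas -/

/-- the residue field of a valuation ring of an algebraically closed field is algebraically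
closed -/
theorem fibreCompat_isAlgClosed_residueField {L : Type*} [Field L] [IsAlgClosed L]
    (V : ValuationSubring L) : IsAlgClosed (IsLocalRing.ResidueField V) := by
  refine IsAlgClosed.of_exists_root _ fun p hp hirr => ?_
  have hl : p ∈ Polynomial.lifts (IsLocalRing.residue V) := by
    rw [Polynomial.mem_lifts]
    exact Polynomial.map_surjective _ IsLocalRing.residue_surjective p
  obtain ⟨P, hPmap, hPdeg, hPmonic⟩ := Polynomial.lifts_and_degree_eq_and_monic hl hp
  have hdeg : (P.map (algebraMap V L)).degree ≠ 0 := by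
    rw [(hPmonic).degree_map, hPdeg]
    exact (Polynomial.degree_pos_of_irreducible hirr).ne'
  obtain ⟨z, hz⟩ := IsAlgClosed.exists_root (P.map (algebraMap V L)) hdeg
  rw [Polynomial.IsRoot.def, Polynomial.eval_map] at hz
  have hzint : IsIntegral V z := ⟨P, hPmonic, hz⟩
  obtain ⟨y, hy⟩ := (IsIntegrallyClosed.isIntegral_iff (R := V) (K := L)).mp hzint
  refine ⟨IsLocalRing.residue V y, ?_⟩
  have h0 : P.eval y = 0 := by
    apply FaithfulSMul.algebraMap_injective V L
    rw [map_zero, ← Polynomial.eval₂_at_apply, hy]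
    exact hz
  rw [← hPmap, Polynomial.eval_map, Polynomial.eval₂_at_apply, h0, map_zero]

/-- integrality only depends on the image of the base ring. -/
theorem fibreCompat_isIntegralElem_of_range_subset {R' P S : Type*} [CommRing R'] [CommRing P]
    [CommRing S] (ψ : R' →+* S) (φ : P →+* S) (h : Set.range ψ ⊆ Set.range φ) {z : S}
    (hz : ψ.IsIntegralElem z) : φ.IsIntegralElem z := by
  obtain ⟨p, hp, h0⟩ := hz
  have hl : p.map ψ ∈ Polynomial.lifts φ := by
    rw [Polynomial.lifts_iff_coeff_lifts]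
    intro n
    rw [Polynomial.coeff_map]
    exact h ⟨_, rfl⟩
  obtain ⟨q, hq, -, hqm⟩ := Polynomial.lifts_and_natDegree_eq_and_monic hl (hp.map ψ)
  refine ⟨q, hqm, ?_⟩
  rw [Polynomial.eval₂_eq_eval_map, hq, ← Polynomial.eval₂_eq_eval_map, h0]

/-! ### the abstract core -/

section Core

variable {A : ValuationSubring Kbar}
  {F F' : Type*} [Field F] [Field F'] [Algebra Kbar F] [Algebra Kbar F'] [FF.IsFF1 Kbar F']

/-- evaluation at `W` followed by reduction, on a ring of functions which are regular with value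
in `A` at `W`. -/
def fibreCompatEv (B' : Subring F') (W : Place Kbar F')
    (hW : ∀ b ∈ B', 0 ≤ W.ord b ∧ val W b ∈ A) : B' →+* kA A where
  toFun b := resA A (val W b.1)
  map_one' := by
    show resA A (val W (1 : F')) = 1
    rw [val_one, resA_one]
  map_mul' b c := by
    obtain ⟨h1, h2⟩ := hW _ b.2
    obtain ⟨h3, h4⟩ := hW _ c.2
    show resA A (val W (b.1 * c.1)) = _
    rw [val_mul h1 h3, resA_mul h2 h4]
  map_zero' := by
    show resA A (val W (0 : F')) = 0
    rw [val_zero, resA_zero]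
  map_add' b c := by
    obtain ⟨h1, h2⟩ := hW _ b.2
    obtain ⟨h3, h4⟩ := hW _ c.2
    show resA A (val W (b.1 + c.1)) = _
    rw [val_add h1 h3, resA_add h2 h4]

theorem fibreCompatEv_apply (B' : Subring F') (W : Place Kbar F')
    (hW : ∀ b ∈ B', 0 ≤ W.ord b ∧ val W b ∈ A) (b : B') :
    fibreCompatEv B' W hW b = resA A (val W b.1) := rfl

variable [Algebra F F'] [IsScalarTower Kbar F F'] [Algebra.IsIntegral F F']
  [HasPrincipalDivisors Kbar F'] [Module.Finite F F']

theorem fibreCompat_core (hV : ValNorm Kbar F F') (B : Subring F) (B' : Subring F')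
    (hconst : ∀ a ∈ A, algebraMap Kbar F' a ∈ B')
    (hnorm : ∀ z ∈ B', Algebra.norm F z ∈ B)
    (P P' : Place Kbar F)
    (hP : ∀ W ∈ P.fiber F', ∀ b ∈ B', 0 ≤ W.ord b ∧ val W b ∈ A)
    (hP' : ∀ W ∈ P'.fiber F', ∀ b ∈ B', 0 ≤ W.ord b ∧ val W b ∈ A)
    (hPP' : ∀ b ∈ B, resA A (val P b) = resA A (val P' b)) :
    ∑ W ∈ P.fiber F', Finsupp.single (fun b : B' => resA A (val W b.1))
        ((W.ramificationIndex F : ℕ) : ℤ) =
      ∑ W ∈ P'.fiber F', Finsupp.single (fun b : B' => resA A (val W b.1))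
        ((W.ramificationIndex F : ℕ) : ℤ) := by
  classical
  haveI : IsAlgClosed (kA A) := fibreCompat_isAlgClosed_residueField A
  haveI : Infinite (kA A) := IsAlgClosed.instInfinite
  let S : Set (B' →+* kA A) :=
    {e | ∃ (W : Place Kbar F') (h : ∀ b ∈ B', 0 ≤ W.ord b ∧ val W b ∈ A),
      e = fibreCompatEv B' W h}
  let m : (Q : Place Kbar F) → (∀ W ∈ Q.fiber F', ∀ b ∈ B', 0 ≤ W.ord b ∧ val W b ∈ A) →
      ((B' →+* kA A) →₀ ℕ) := fun Q hQ =>
    ∑ W ∈ (Q.fiber F').attach,
      Finsupp.single (fibreCompatEv B' W.1 (hQ W.1 W.2)) (W.1.ramificationIndex F)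
  have hmS : ∀ Q hQ e, m Q hQ e ≠ 0 → e ∈ S := by
    intro Q hQ e he
    by_contra hS
    apply he
    show (∑ W ∈ (Q.fiber F').attach,
      Finsupp.single (fibreCompatEv B' W.1 (hQ W.1 W.2)) (W.1.ramificationIndex F)) e = 0
    rw [Finsupp.finset_sum_apply]
    refine Finset.sum_eq_zero fun W _ => ?_
    rw [Finsupp.single_apply, if_neg]
    intro h
    exact hS ⟨W.1, hQ W.1 W.2, h.symm⟩
  have hprod : ∀ Q hQ (b : B') (c : Kbar), c ∈ A →
      (m Q hQ).prod (fun e n => (resA A c - e b) ^ n) =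
        resA A (val Q (Algebra.norm F (algebraMap Kbar F' c - b.1))) := by
    intro Q hQ b c hc
    have hz : ∀ w ∈ Q.fiber F', 0 ≤ w.ord (algebraMap Kbar F' c - b.1) ∧
        val w (algebraMap Kbar F' c - b.1) ∈ A := fun w hw =>
      hQ w hw _ (sub_mem (hconst c hc) b.2)
    rw [(hV Q _ (fun w hw => (hz w hw).1)).2, resA_prod _ _ (fun w hw => pow_mem (hz w hw).2 _)]
    show (∑ W ∈ (Q.fiber F').attach,
      Finsupp.single (fibreCompatEv B' W.1 (hQ W.1 W.2)) (W.1.ramificationIndex F)).prod
        (fun e n => (resA A c - e b) ^ n) = _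
    rw [← Finsupp.prod_finset_sum_index (fun _ => pow_zero _) (fun _ _ _ => pow_add _ _ _),
      ← Finset.prod_attach (Q.fiber F')]
    refine Finset.prod_congr rfl fun W _ => ?_
    have hs : (Finsupp.single (fibreCompatEv B' W.1 (hQ W.1 W.2))
        (W.1.ramificationIndex F)).prod (fun (e : B' →+* kA A) (n : ℕ) => (resA A c - e b) ^ n) =
        (resA A c - fibreCompatEv B' W.1 (hQ W.1 W.2) b) ^ (W.1.ramificationIndex F) :=
      Finsupp.prod_single_index (pow_zero _)
    rw [hs, resA_pow (hz W.1 W.2).2, fibreCompatEv_apply,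
      val_sub (ord_algebraMap_nonneg c) (hQ W.1 W.2 _ b.2).1, val_algebraMap,
      resA_sub hc (hQ W.1 W.2 _ b.2).2]
  have hconstEv : ∀ (W : Place Kbar F') (h : ∀ b ∈ B', 0 ≤ W.ord b ∧ val W b ∈ A) (a : Kbar)
      (ha : a ∈ A), fibreCompatEv B' W h ⟨algebraMap Kbar F' a, hconst a ha⟩ = resA A a := by
    intro W h a ha
    rw [fibreCompatEv_apply, val_algebraMap]
  have hsurj : ∀ e ∈ S, Function.Surjective e := by
    rintro _ ⟨W, h, rfl⟩ x
    obtain ⟨a, ha, rfl⟩ := exists_mem_resA_eq A x
    exact ⟨_, hconstEv W h a ha⟩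
  have hker : ∀ e ∈ S, ∀ e' ∈ S, RingHom.ker e = RingHom.ker e' → e = e' := by
    rintro _ ⟨W, h, rfl⟩ _ ⟨W', h', rfl⟩ hk
    ext b
    obtain ⟨a, ha, hab⟩ := exists_mem_resA_eq A (fibreCompatEv B' W h b)
    have h1 : b - ⟨algebraMap Kbar F' a, hconst a ha⟩ ∈ RingHom.ker (fibreCompatEv B' W h) := by
      rw [RingHom.mem_ker, map_sub, hconstEv W h a ha, hab, sub_self]
    rw [hk, RingHom.mem_ker, map_sub, hconstEv W' h' a ha, sub_eq_zero] at h1
    rw [h1, hab]
  have hmm : m P hP = m P' hP' := by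
    refine sep_lemma _ _ S (hmS _ _) (hmS _ _) hsurj hker ?_
    intro b c
    obtain ⟨a, ha, rfl⟩ := exists_mem_resA_eq A c
    rw [hprod _ _ _ _ ha, hprod _ _ _ _ ha]
    exact hPP' _ (hnorm _ (sub_mem (hconst a ha) b.2))
  let Φ : ((B' →+* kA A) →₀ ℕ) →+ ((B' → kA A) →₀ ℤ) :=
    Finsupp.liftAddHom (fun e =>
      (Finsupp.singleAddHom (e : B' → kA A)).comp (Nat.castAddMonoidHom ℤ))
  have hΦ : ∀ Q hQ, Φ (m Q hQ) = ∑ W ∈ Q.fiber F',
      Finsupp.single (fun b : B' => resA A (val W b.1)) ((W.ramificationIndex F : ℕ) : ℤ) := by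
    intro Q hQ
    show Φ (∑ W ∈ (Q.fiber F').attach,
      Finsupp.single (fibreCompatEv B' W.1 (hQ W.1 W.2)) (W.1.ramificationIndex F)) = _
    rw [map_sum, ← Finset.sum_attach (Q.fiber F')]
    refine Finset.sum_congr rfl fun W _ => ?_
    rw [Finsupp.liftAddHom_apply_single]
    rfl
  rw [← hΦ P hP, ← hΦ P' hP', hmm]

end Core

/-! ### the modular input: norms of integral functions are integral -/

section Modular

variable (A : ValuationSubring Kbar) (N : ℕ) [NeZero N] (r : ℕ) [NeZero r]

theorem fibreCompat_alpha_jF : heckeAlphaBar Kbar N r (jF N) = jF (N * r) :=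
  Subtype.ext (coe_heckeAlphaBar N r (jF N))

theorem fibreCompat_map_RY (y : FN N) :
    (RY A N y).map (heckeAlphaBar Kbar N r).toRingHom = RY A (N * r) (heckeAlphaBar Kbar N r y) := by
  unfold RY
  rw [RingHom.map_closure, Set.image_union, Set.image_singleton]
  congr 2
  ext f
  constructor
  · rintro ⟨_, ⟨a, ha, rfl⟩, rfl⟩
    exact ⟨a, ha, (heckeAlphaBar Kbar N r).commutes a⟩
  · rintro ⟨a, ha, rfl⟩
    exact ⟨_, ⟨a, ha, rfl⟩, (heckeAlphaBar Kbar N r).commutes a⟩

theorem fibreCompat_norm_mem (y : FN N) {z : FN (N * r)}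
    (hz : z ∈ BY A (N * r) (heckeAlphaBar Kbar N r y)) :
    letI := algebraAlong (heckeAlphaBar Kbar N r)
    Algebra.norm (FN N) z ∈ BY A N y := by
  letI := algebraAlong (heckeAlphaBar Kbar N r)
  letI : Algebra (RY A N y) (FN (N * r)) :=
    ((algebraMap (FN N) (FN (N * r))).comp (algebraMap (RY A N y) (FN N))).toAlgebra
  haveI : IsScalarTower (RY A N y) (FN N) (FN (N * r)) :=
    IsScalarTower.of_algebraMap_eq fun _ => rfl
  have hz' : IsIntegral (RY A N y) z := by
    refine fibreCompat_isIntegralElem_of_range_subset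
      (algebraMap (RY A (N * r) (heckeAlphaBar Kbar N r y)) (FN (N * r))) _ ?_ hz
    rintro _ ⟨⟨s, hs⟩, rfl⟩
    rw [← fibreCompat_map_RY] at hs
    obtain ⟨t, ht, rfl⟩ := hs
    exact ⟨⟨t, ht⟩, rfl⟩
  exact Algebra.isIntegral_norm (FN N) hz'

end Modular

/-! ### the theorem -/

section Final

variable (A : ValuationSubring Kbar) (N : ℕ) [NeZero N]

/-- task S37-C0-Fibre -/
theorem fibreCompat (r : ℕ) [NeZero r]
    (hV : letI := algebraAlong (heckeAlphaBar Kbar N r)
      haveI := isScalarTower_along (heckeAlphaBar Kbar N r)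
      haveI := isIntegral_along (heckeAlphaBar Kbar N r) (HeckeInputs.alpha_integral N r)
      haveI : Module.Finite (FN N) (FN (N * r)) := HeckeInputs.alpha_finite N r
      ValNorm Kbar (FN N) (FN (N * r))) : FibreCompat A N r := by
  letI := algebraAlong (heckeAlphaBar Kbar N r)
  haveI := isScalarTower_along (heckeAlphaBar Kbar N r)
  haveI := isIntegral_along (heckeAlphaBar Kbar N r) (HeckeInputs.alpha_integral N r)
  haveI : Module.Finite (FN N) (FN (N * r)) := HeckeInputs.alpha_finite N r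
  intro P P' hred
  have hj : algebraMap (FN N) (FN (N * r)) (jF N) = jF (N * r) := fibreCompat_alpha_jF N r
  have hfib : ∀ (Q : Pl N) (W : Pl (N * r)), W ∈ Q.fiber (FN (N * r)) →
      (InFin A (N * r) W ↔ InFin A N Q) := by
    intro Q W hW
    have hWQ : W.restrict (FN N) = Q := Place.mem_fiber.1 hW
    unfold InFin
    rw [← hWQ, ord_restrict_nonneg_iff, val_restrict, hj]
  have hsum : ∀ Q : Pl N, redDiv A (N * r) (Divisor.pullbackAlong (heckeAlphaBar Kbar N r)
      (HeckeInputs.alpha_integral N r) (Finsupp.single Q 1)) =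
      ∑ W ∈ Q.fiber (FN (N * r)),
        Finsupp.single (red A (N * r) W) ((W.ramificationIndex (FN N) : ℕ) : ℤ) := by
    intro Q
    rw [Divisor.pullbackAlong_single, map_sum]
    refine Finset.sum_congr rfl fun W _ => ?_
    rw [redDiv_single, one_mul]
    rfl
  rw [hsum, hsum]
  by_cases hP : InFin A N P
  · have hP' : InFin A N P' := by
      by_contra h
      unfold red at hred
      rw [if_pos hP, if_neg h] at hred
      exact Sum.inl_ne_inr hred
    have hfun : ∀ b ∈ BFin A N, resA A (val P b) = resA A (val P' b) := by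
      intro b hb
      unfold red at hred
      rw [if_pos hP, if_pos hP'] at hred
      exact congrFun (Sum.inl.inj hred) ⟨b, hb⟩
    have hnorm : ∀ z ∈ BFin A (N * r), Algebra.norm (FN N) z ∈ BFin A N := by
      intro z hz
      refine fibreCompat_norm_mem A N r (jF N) ?_
      rw [fibreCompat_alpha_jF]
      exact hz
    have key := fibreCompat_core (A := A) hV (BFin A N) (BFin A (N * r))
      (fun a ha => algebraMap_mem_BFin ha) hnorm P P'
      (fun W hW b hb => mem_compRing_of_mem_BFin ((hfib P W hW).2 hP) hb)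
      (fun W hW b hb => mem_compRing_of_mem_BFin ((hfib P' W hW).2 hP') hb) hfun
    have hconv : ∀ Q : Pl N, InFin A N Q → ∑ W ∈ Q.fiber (FN (N * r)),
        Finsupp.single (red A (N * r) W) ((W.ramificationIndex (FN N) : ℕ) : ℤ) =
        Finsupp.mapDomain (Sum.inl : _ → X A (N * r)) (∑ W ∈ Q.fiber (FN (N * r)),
          Finsupp.single (fun b : BFin A (N * r) => resA A (val W b.1))
            ((W.ramificationIndex (FN N) : ℕ) : ℤ)) := by
      intro Q hQ
      rw [Finsupp.mapDomain_finset_sum]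
      refine Finset.sum_congr rfl fun W hW => ?_
      rw [Finsupp.mapDomain_single]
      congr 1
      unfold red
      rw [if_pos ((hfib Q W hW).2 hQ)]
    rw [hconv P hP, hconv P' hP', key]
  · have hP' : ¬ InFin A N P' := by
      intro h
      unfold red at hred
      rw [if_neg hP, if_pos h] at hred
      exact Sum.inr_ne_inl hred
    have hfun : ∀ b ∈ BInf A N, resA A (val P b) = resA A (val P' b) := by
      intro b hb
      unfold red at hred
      rw [if_neg hP, if_neg hP'] at hred
      exact congrFun (Sum.inr.inj hred) ⟨b, hb⟩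
    have hnorm : ∀ z ∈ BInf A (N * r), Algebra.norm (FN N) z ∈ BInf A N := by
      intro z hz
      refine fibreCompat_norm_mem A N r (jF N)⁻¹ ?_
      rw [map_inv₀, fibreCompat_alpha_jF]
      exact hz
    have key := fibreCompat_core (A := A) hV (BInf A N) (BInf A (N * r))
      (fun a ha => algebraMap_mem_BInf ha) hnorm P P'
      (fun W hW b hb => mem_compRing_of_mem_BInf (fun h => hP ((hfib P W hW).1 h)) hb)
      (fun W hW b hb => mem_compRing_of_mem_BInf (fun h => hP' ((hfib P' W hW).1 h)) hb) hfun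
    have hconv : ∀ Q : Pl N, ¬ InFin A N Q → ∑ W ∈ Q.fiber (FN (N * r)),
        Finsupp.single (red A (N * r) W) ((W.ramificationIndex (FN N) : ℕ) : ℤ) =
        Finsupp.mapDomain (Sum.inr : _ → X A (N * r)) (∑ W ∈ Q.fiber (FN (N * r)),
          Finsupp.single (fun b : BInf A (N * r) => resA A (val W b.1))
            ((W.ramificationIndex (FN N) : ℕ) : ℤ)) := by
      intro Q hQ
      rw [Finsupp.mapDomain_finset_sum]
      refine Finset.sum_congr rfl fun W hW => ?_
      rw [Finsupp.mapDomain_single]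
      congr 1
      unfold red
      rw [if_neg (fun h => hQ ((hfib Q W hW).1 h))]
    rw [hconv P hP, hconv P' hP', key]

end Final

end Fermat.Agent.S37

end
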