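import Fermat.Agent.S37.C0.Defs
import Fermat.Agent.S37.Val
import Fermat.Agent.S37.EVCore
import Fermat.Agent.S24.FFDeg

/-!
# S37, block C0: the tube lemma (task S37-C0-Tube, helper109)

`tubeStmt`: let `f = a₁ / a₂` be normalised for the Gauss valuation.  If LF holds in the tube
`y ≡ c` and the divisor of `f` has degree `0` on every residue class of this tube, then
`g(ȳ) f̄ ∈ ρ(BY)` for some `g ∈ A[X]` with `ḡ(c) ≠ 0`.

Auxiliary statements live in the namespace `Fermat.Agent.S37.Tube`: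
* `class_prod`   : bookkeeping (class sums vanish => the two products of a class function agree)
* `HE f τ`       : `f` has an `A`-integral expansion with reduction `τ`
* `evalF A y`    : evaluation of polynomials over `A` at `y`
* `exists_unif`  : uniformisers `s_P` whose reduction only depends on the class of `P`
* `exists_split` : the products `s₊`, `s₋`
* `exists_clear` : clearing the poles outside the tube by a polynomial in `y`
-/

set_option autoImplicit false

noncomputable section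

namespace Fermat.Agent.S37

open AlgebraicCurve ModularCurve Fermat.Agent.S24

namespace Tube

/-! ### pure algebra -/

theorem prod_zpow_sum {ι M : Type*} [CommGroupWithZero M] (S : Finset ι) (a : M) (ha : a ≠ 0)
    (d : ι → ℤ) : ∏ P ∈ S, a ^ d P = a ^ ∑ P ∈ S, d P := by
  classical
  induction S using Finset.induction_on with
  | empty => simp
  | insert i s hi ih => rw [Finset.prod_insert hi, Finset.sum_insert hi, zpow_add₀ ha, ih]

/-- bookkeeping: if the class sums of `d` vanish then the "positive" and the "negative" products of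
a class function agree -/
theorem class_prod {ι E M : Type*} [DecidableEq E] [CommGroupWithZero M] (S : Finset ι)
    (cl : ι → E) (τ : E → M) (hτ : ∀ P ∈ S, τ (cl P) ≠ 0) (d : ι → ℤ)
    (h : ∀ e, ∑ P ∈ S.filter (fun P => cl P = e), d P = 0) :
    ∏ P ∈ S, τ (cl P) ^ (d P).toNat = ∏ P ∈ S, τ (cl P) ^ (- d P).toNat := by
  have h1 : ∏ P ∈ S, τ (cl P) ^ (d P) = 1 := by
    rw [← Finset.prod_fiberwise_of_maps_to (s := S) (t := S.image cl) (g := cl)
      (fun P hP => Finset.mem_image_of_mem cl hP)]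
    apply Finset.prod_eq_one
    intro e he
    obtain ⟨Q, hQ, rfl⟩ := Finset.mem_image.1 he
    have h2 : ∏ P ∈ S.filter (fun P => cl P = cl Q), τ (cl P) ^ (d P)
        = ∏ P ∈ S.filter (fun P => cl P = cl Q), τ (cl Q) ^ (d P) := by
      apply Finset.prod_congr rfl
      intro P hP
      rw [(Finset.mem_filter.1 hP).2]
    rw [h2, prod_zpow_sum _ _ (hτ Q hQ), h, zpow_zero]
  have h3 : ∏ P ∈ S, τ (cl P) ^ (d P)
      = (∏ P ∈ S, τ (cl P) ^ (d P).toNat) / ∏ P ∈ S, τ (cl P) ^ (- d P).toNat := by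
    rw [← Finset.prod_div_distrib]
    apply Finset.prod_congr rfl
    intro P hP
    have e : d P = ((d P).toNat : ℤ) - ((- d P).toNat : ℤ) := by omega
    conv_lhs => rw [e]
    rw [zpow_sub₀ (hτ P hP), zpow_natCast, zpow_natCast]
  rw [h3] at h1
  have h4 : ∏ P ∈ S, τ (cl P) ^ (- d P).toNat ≠ 0 :=
    Finset.prod_ne_zero_iff.2 fun P hP => pow_ne_zero _ (hτ P hP)
  exact (div_eq_one_iff_eq h4).1 h1

/-! ### orders of products -/

section Ord

variable {K F : Type*} [Field K] [Field F] [Algebra K F]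

theorem ord_prod (v : Place K F) {ι : Type*} (S : Finset ι) (f : ι → F) (hf : ∀ i ∈ S, f i ≠ 0) :
    v.ord (∏ i ∈ S, f i) = ∑ i ∈ S, v.ord (f i) := by
  classical
  induction S using Finset.induction_on with
  | empty => simp
  | insert i s hi ih =>
    rw [Finset.prod_insert hi, Finset.sum_insert hi,
      v.ord_mul (hf i (Finset.mem_insert_self i s))
        (Finset.prod_ne_zero_iff.2 fun j hj => hf j (Finset.mem_insert_of_mem hj)),
      ih fun j hj => hf j (Finset.mem_insert_of_mem hj)]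

theorem ord_prod_pow (v : Place K F) {ι : Type*} (S : Finset ι) (f : ι → F) (n : ι → ℕ)
    (hf : ∀ i ∈ S, f i ≠ 0) :
    v.ord (∏ i ∈ S, f i ^ n i) = ∑ i ∈ S, (n i : ℤ) * v.ord (f i) := by
  rw [ord_prod v S _ fun i hi => pow_ne_zero _ (hf i hi)]
  exact Finset.sum_congr rfl fun i _ => FF.ord_pow v _ _

end Ord


/-! ### the rings `A[y]`, `BY` -/

section Rings

variable {A : ValuationSubring Kbar} {N : ℕ}

theorem const_mem_RY {y : FN N} {a : Kbar} (ha : a ∈ A) : algebraMap Kbar (FN N) a ∈ RY A N y :=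
  Subring.subset_closure (Or.inl ⟨a, ha, rfl⟩)

theorem self_mem_RY (y : FN N) : y ∈ RY A N y := Subring.subset_closure (Or.inr rfl)

theorem RY_le_BY (y : FN N) : RY A N y ≤ BY A N y := fun x hx =>
  (isIntegral_algebraMap (R := RY A N y) (x := ⟨x, hx⟩) : IsIntegral (RY A N y) x)

theorem const_mem_BY {y : FN N} {a : Kbar} (ha : a ∈ A) : algebraMap Kbar (FN N) a ∈ BY A N y :=
  RY_le_BY y (const_mem_RY ha)

variable [NeZero N]

theorem RY_le_compRing {y : FN N} {P : Pl N} (hP : Reg A N y P) :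
    RY A N y ≤ (compRing A P).toSubring := by
  unfold RY
  rw [Subring.closure_le]
  rintro x (⟨a, ha, rfl⟩ | rfl)
  · exact algebraMap_mem_compRing ha
  · exact hP

theorem mem_of_reg {y b : FN N} {P : Pl N} (hP : Reg A N y P) (hb : b ∈ BY A N y) :
    0 ≤ P.ord b ∧ val P b ∈ A :=
  mem_valuationSubring_of_isIntegral (compRing A P) (RY A N y) (RY_le_compRing hP) hb

end Rings

/-! ### functions with an integral expansion of given reduction -/

section HE

variable (A : ValuationSubring Kbar) (N : ℕ)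

/-- `f` has an `A`-integral expansion, with reduction `τ` -/
def HE (f : FN N) (τ : LaurentSeries (kA A)) : Prop :=
  ∃ Y : LaurentSeries A, HasIntExp A N f Y ∧ rho A Y = τ

variable {A N} {f g : FN N} {τ τ' : LaurentSeries (kA A)}

theorem HE.mul (hf : HE A N f τ) (hg : HE A N g τ') : HE A N (f * g) (τ * τ') := by
  obtain ⟨Y, hY, rfl⟩ := hf
  obtain ⟨Z, hZ, rfl⟩ := hg
  refine ⟨Y * Z, ?_, map_mul _ _ _⟩
  unfold HasIntExp at *
  rw [map_mul, hY, hZ]
  rfl

theorem HE.add (hf : HE A N f τ) (hg : HE A N g τ') : HE A N (f + g) (τ + τ') := by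
  obtain ⟨Y, hY, rfl⟩ := hf
  obtain ⟨Z, hZ, rfl⟩ := hg
  refine ⟨Y + Z, ?_, map_add _ _ _⟩
  unfold HasIntExp at *
  rw [map_add, hY, hZ]
  rfl

theorem HE.sub (hf : HE A N f τ) (hg : HE A N g τ') : HE A N (f - g) (τ - τ') := by
  obtain ⟨Y, hY, rfl⟩ := hf
  obtain ⟨Z, hZ, rfl⟩ := hg
  refine ⟨Y - Z, ?_, map_sub _ _ _⟩
  unfold HasIntExp at *
  rw [map_sub, hY, hZ]
  rfl

theorem HE.one : HE A N 1 1 := by
  refine ⟨1, ?_, map_one _⟩
  unfold HasIntExp
  rw [map_one]
  rfl

theorem HE.pow (hf : HE A N f τ) (n : ℕ) : HE A N (f ^ n) (τ ^ n) := by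
  induction n with
  | zero => simpa using HE.one
  | succ n ih => rw [pow_succ, pow_succ]; exact ih.mul hf

theorem HE.prod_pow {ι : Type*} (S : Finset ι) (s : ι → FN N) (t : ι → LaurentSeries (kA A))
    (n : ι → ℕ) (h : ∀ i ∈ S, HE A N (s i) (t i)) :
    HE A N (∏ i ∈ S, s i ^ n i) (∏ i ∈ S, t i ^ n i) := by
  classical
  induction S using Finset.induction_on with
  | empty => simpa using HE.one
  | insert i S hi ih =>
    rw [Finset.prod_insert hi, Finset.prod_insert hi]
    exact ((h i (Finset.mem_insert_self i S)).pow _).mul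
      (ih fun j hj => h j (Finset.mem_insert_of_mem hj))

theorem HE.const {a : Kbar} (ha : a ∈ A) :
    HE A N (algebraMap Kbar (FN N) a) (HahnSeries.single 0 (resA A a)) := by
  refine ⟨HahnSeries.single 0 ⟨a, ha⟩, ?_, ?_⟩
  · unfold HasIntExp
    rw [coeffMap_single]
    exact (algebraMap_laurentSeries_eq_single Kbar a).symm
  · rw [rho, coeffMap_single, resA_of_mem A ha]

theorem HE.unique (hf : HE A N f τ) (hg : HE A N f τ') : τ = τ' := by
  obtain ⟨Y, hY, rfl⟩ := hf
  obtain ⟨Z, hZ, rfl⟩ := hg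
  rw [EV.coeffMap_injective (f := A.subtype) Subtype.val_injective (hY.trans hZ.symm)]

theorem HE.ne_zero (hf : HE A N f τ) (hτ : τ ≠ 0) : f ≠ 0 := by
  rintro rfl
  obtain ⟨Y, hY, rfl⟩ := hf
  apply hτ
  have h0 : Y = 0 := by
    apply EV.coeffMap_injective (f := A.subtype) Subtype.val_injective
    rw [map_zero]
    exact hY
  rw [h0]
  exact map_zero _

end HE


/-! ### evaluation of polynomials over `A` at `y` -/

section Eval

variable {A : ValuationSubring Kbar} {N : ℕ}

/-- `g ↦ g(y)` -/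
def evalF (A : ValuationSubring Kbar) {N : ℕ} (y : FN N) : Polynomial A →+* FN N :=
  Polynomial.eval₂RingHom ((algebraMap Kbar (FN N)).comp A.subtype) y

theorem evalF_monomial (y : FN N) (n : ℕ) (a : A) :
    evalF A y (Polynomial.monomial n a) = algebraMap Kbar (FN N) (a : Kbar) * y ^ n := by
  rw [evalF, Polynomial.coe_eval₂RingHom, Polynomial.eval₂_monomial]
  rfl

theorem evalF_X (y : FN N) : evalF A y Polynomial.X = y := by
  rw [evalF, Polynomial.coe_eval₂RingHom, Polynomial.eval₂_X]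

theorem evalF_C (y : FN N) (a : A) :
    evalF A y (Polynomial.C a) = algebraMap Kbar (FN N) (a : Kbar) := by
  rw [evalF, Polynomial.coe_eval₂RingHom, Polynomial.eval₂_C]
  rfl

theorem HE.evalF {y : FN N} {Yy : LaurentSeries A} (hy : HasIntExp A N y Yy) (p : Polynomial A) :
    HE A N (evalF A y p)
      (Polynomial.aeval (rho A Yy) (p.map (IsLocalRing.residue A))) := by
  induction p using Polynomial.induction_on' with
  | add p q hp hq =>
    rw [map_add, Polynomial.map_add, map_add]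
    exact hp.add hq
  | monomial n a =>
    rw [evalF_monomial, Polynomial.map_monomial, Polynomial.aeval_monomial,
      algebraMap_laurentSeries_eq_single, ← resA_coe]
    exact (HE.const a.2).mul (HE.pow (⟨Yy, hy, rfl⟩ : HE A N y (rho A Yy)) n)

theorem ord_evalF_nonneg {y : FN N} (v : Pl N) (hv : 0 ≤ v.ord y) (p : Polynomial A) :
    0 ≤ v.ord (evalF A y p) := by
  induction p using Polynomial.induction_on' with
  | add p q hp hq =>
    rw [map_add]
    exact ord_add_nonneg hp hq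
  | monomial n a =>
    rw [evalF_monomial]
    exact ord_mul_nonneg (ord_algebraMap_nonneg _) (ord_pow_nonneg hv n)

variable [NeZero N]

/-- a linear polynomial over `A`, not vanishing at `c` mod `𝔪_A`, vanishing at a given place outside
the tube -/
theorem exists_fac {y : FN N} (hy : Transcendental Kbar y) (c : kA A) (P : Pl N)
    (h0 : 0 ≤ P.ord y) (hP : ¬ Tube A N y c P) :
    ∃ g : Polynomial A, (g.map (IsLocalRing.residue A)).eval c ≠ 0 ∧ 0 < P.ord (evalF A y g) := by
  have hne : ∀ a : Kbar, y - algebraMap Kbar (FN N) a ≠ 0 := by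
    intro a h
    rw [sub_eq_zero] at h
    exact hy (h ▸ isAlgebraic_algebraMap _)
  have hpos : 0 < P.ord (y - algebraMap Kbar (FN N) (val P y)) :=
    (val_spec h0).resolve_left fun h => hne _ (sub_eq_zero.2 h)
  by_cases ha : val P y ∈ A
  · refine ⟨Polynomial.X - Polynomial.C ⟨val P y, ha⟩, ?_, ?_⟩
    · rw [Polynomial.map_sub, Polynomial.map_X, Polynomial.map_C, Polynomial.eval_sub,
        Polynomial.eval_X, Polynomial.eval_C]
      intro h
      apply hP
      refine ⟨⟨h0, ha⟩, ?_⟩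
      rw [resA_of_mem A ha]
      exact (sub_eq_zero.1 h).symm
    · rw [map_sub, evalF_X, evalF_C]
      exact hpos
  · have ha' : (val P y)⁻¹ ∈ A.nonunits := (ValuationSubring.inv_mem_nonunits_iff A).2 (Or.inr ha)
    have ha0 : val P y ≠ 0 := fun h => ha (h ▸ A.zero_mem)
    refine ⟨1 - Polynomial.C ⟨(val P y)⁻¹, ValuationSubring.nonunits_subset ha'⟩ * Polynomial.X,
      ?_, ?_⟩
    · rw [Polynomial.map_sub, Polynomial.map_one, Polynomial.map_mul, Polynomial.map_X,
        Polynomial.map_C, Polynomial.eval_sub, Polynomial.eval_one, Polynomial.eval_mul,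
        Polynomial.eval_X, Polynomial.eval_C, ← resA_of_mem A, resA_of_mem_nonunits ha', zero_mul,
        sub_zero]
      exact one_ne_zero
    · rw [map_sub, map_one, map_mul, evalF_X, evalF_C]
      have e : (1 : FN N) - algebraMap Kbar (FN N) (val P y)⁻¹ * y
          = algebraMap Kbar (FN N) (-(val P y)⁻¹) * (y - algebraMap Kbar (FN N) (val P y)) := by
        rw [map_neg, mul_sub, neg_mul, neg_mul, ← map_mul, inv_mul_cancel₀ ha0, map_one]
        ring
      show 0 < P.ord ((1 : FN N) - algebraMap Kbar (FN N) (val P y)⁻¹ * y)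
      rw [e, P.ord_mul _ (hne _), FF.ord_algebraMap, zero_add]
      · exact hpos
      · rw [Ne, map_eq_zero, neg_eq_zero, inv_eq_zero]
        exact ha0

end Eval


/-! ### local uniformisers, constant on the residue classes modulo `𝔪_A` -/

section Unif

variable {A : ValuationSubring Kbar} {N : ℕ} [NeZero N]

theorem exists_unif (y : FN N) (c : kA A) (hLF : ∀ P, Tube A N y c P → LFAt A N y P) :
    ∃ (τ : (BY A N y → kA A) → LaurentSeries (kA A)) (s : Pl N → FN N),
      ∀ P, Tube A N y c P →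
        τ (eps A N y P) ≠ 0 ∧ HE A N (s P) (τ (eps A N y P)) ∧ P.ord (s P) = 1 ∧
        ∀ P', Tube A N y c P' → P' ≠ P → P'.ord (s P) = 0 := by
  classical
  have key : ∀ e : BY A N y → kA A, ∃ (t : FN N) (τ : LaurentSeries (kA A)),
      (∃ Q, Tube A N y c Q ∧ eps A N y Q = e) →
      t ∈ BY A N y ∧ HE A N t τ ∧ τ ≠ 0 ∧
      (∀ P, Tube A N y c P → eps A N y P = e → val P t ∈ A.nonunits) ∧
      ∀ a ∈ A.nonunits, ∀ P' : Pl N, Tube A N y c P' →
      0 < P'.ord (t - algebraMap Kbar (FN N) a) →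
        P'.ord (t - algebraMap Kbar (FN N) a) = 1 ∧
        ∀ P'' : Pl N, Tube A N y c P'' →
          0 < P''.ord (t - algebraMap Kbar (FN N) a) → P'' = P' := by
    intro e
    by_cases h : ∃ Q, Tube A N y c Q ∧ eps A N y Q = e
    · obtain ⟨Q, hQ, rfl⟩ := h
      obtain ⟨t, Y, ht, hY, hρ, hv, hu⟩ := hLF Q hQ
      rw [hQ.2] at hu
      refine ⟨t, rho A Y, fun _ => ⟨ht, ⟨Y, hY, rfl⟩, hρ, ?_, hu⟩⟩
      intro P hP he
      have h1 : resA A (val P t) = resA A (val Q t) := congrFun he ⟨t, ht⟩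
      rw [resA_of_mem_nonunits hv] at h1
      exact (resA_eq_zero_iff (mem_of_reg hP.1 ht).2).1 h1
    · exact ⟨0, 0, fun h' => absurd h' h⟩
  choose t τ H using key
  refine ⟨τ, fun P => t (eps A N y P) - algebraMap Kbar (FN N) (val P (t (eps A N y P))), ?_⟩
  intro P hP
  obtain ⟨ht, hE, hτ, hv, hu⟩ := H (eps A N y P) ⟨P, hP, rfl⟩
  have ha := hv P hP rfl
  have haA : val P (t (eps A N y P)) ∈ A := ValuationSubring.nonunits_subset ha
  have hs : HE A N (t (eps A N y P) - algebraMap Kbar (FN N) (val P (t (eps A N y P))))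
      (τ (eps A N y P)) := by
    have := hE.sub (HE.const (N := N) haA)
    rwa [resA_of_mem_nonunits ha, HahnSeries.single_eq_zero, sub_zero] at this
  have hs0 := hs.ne_zero hτ
  have hpos : 0 < P.ord (t (eps A N y P) - algebraMap Kbar (FN N) (val P (t (eps A N y P)))) :=
    (val_spec (mem_of_reg hP.1 ht).1).resolve_left fun h => hs0 (sub_eq_zero.2 h)
  obtain ⟨h1, h2⟩ := hu _ ha P hP hpos
  refine ⟨hτ, hs, h1, ?_⟩
  intro P' hP' hne
  have h3 : 0 ≤ P'.ord (t (eps A N y P) - algebraMap Kbar (FN N) (val P (t (eps A N y P)))) :=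
    (mem_of_reg hP'.1 (sub_mem ht (const_mem_BY haA))).1
  by_contra h4
  exact hne (h2 P' hP' (lt_of_le_of_ne h3 (Ne.symm h4)))

/-- the two products of uniformisers -/
theorem exists_split (y : FN N) (c : kA A) (hLF : ∀ P, Tube A N y c P → LFAt A N y P)
    (D : Pl N → ℤ) (S : Finset (Pl N)) (hS : ∀ P, P ∈ S ↔ D P ≠ 0 ∧ Tube A N y c P)
    [DecidableEq (BY A N y → kA A)]
    (hsum : ∀ e : BY A N y → kA A, ∑ P ∈ S.filter (fun P => eps A N y P = e), D P = 0) :
    ∃ (sp sm : FN N) (τ : LaurentSeries (kA A)), τ ≠ 0 ∧ HE A N sp τ ∧ HE A N sm τ ∧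
      ∀ P, Tube A N y c P → P.ord sp = (D P).toNat ∧ P.ord sm = (- D P).toNat := by
  classical
  obtain ⟨τ, s, H⟩ := exists_unif y c hLF
  have hne : ∀ P ∈ S, s P ≠ 0 := fun P hP =>
    (H P ((hS P).1 hP).2).2.1.ne_zero (H P ((hS P).1 hP).2).1
  have hord : ∀ (n : Pl N → ℕ), (∀ P, D P = 0 → n P = 0) → ∀ P, Tube A N y c P →
      P.ord (∏ Q ∈ S, s Q ^ n Q) = n P := by
    intro n hn P hP
    rw [ord_prod_pow P S s n hne]
    have h1 : ∀ Q ∈ S, (n Q : ℤ) * P.ord (s Q) = if Q = P then (n P : ℤ) else 0 := by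
      intro Q hQ
      split_ifs with h
      · subst h
        rw [(H Q hP).2.2.1, mul_one]
      · rw [(H Q ((hS Q).1 hQ).2).2.2.2 P hP (Ne.symm h), mul_zero]
    rw [Finset.sum_congr rfl h1, Finset.sum_ite_eq' S P]
    split_ifs with h
    · rfl
    · have : D P = 0 := by
        by_contra h0
        exact h ((hS P).2 ⟨h0, hP⟩)
      rw [hn P this, Nat.cast_zero]
  refine ⟨∏ Q ∈ S, s Q ^ (D Q).toNat, ∏ Q ∈ S, s Q ^ (- D Q).toNat,
    ∏ Q ∈ S, τ (eps A N y Q) ^ (D Q).toNat, ?_, ?_, ?_, ?_⟩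
  · exact Finset.prod_ne_zero_iff.2 fun Q hQ => pow_ne_zero _ (H Q ((hS Q).1 hQ).2).1
  · exact HE.prod_pow S s _ _ fun Q hQ => (H Q ((hS Q).1 hQ).2).2.1
  · rw [class_prod S (eps A N y) τ (fun Q hQ => (H Q ((hS Q).1 hQ).2).1) D hsum]
    exact HE.prod_pow S s _ _ fun Q hQ => (H Q ((hS Q).1 hQ).2).2.1
  · intro P hP
    exact ⟨hord _ (fun P h => by rw [h]; rfl) P hP, hord _ (fun P h => by rw [h]; rfl) P hP⟩

end Unif


/-! ### clearing the poles outside the tube -/

section Clear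

variable {A : ValuationSubring Kbar} {N : ℕ} [NeZero N]

theorem exists_clear {y : FN N} (hy : Transcendental Kbar y) {Yy : LaurentSeries A}
    (hYy : HasIntExp A N y Yy) (hYt : Transcendental (kA A) (rho A Yy)) (c : kA A) (f : FN N)
    (hf : f ≠ 0) (htube : ∀ P, Tube A N y c P → 0 ≤ P.ord f) :
    ∃ g : Polynomial A, (g.map (IsLocalRing.residue A)).eval c ≠ 0 ∧ evalF A y g ≠ 0 ∧
      ∀ v : Pl N, 0 ≤ v.ord y → 0 ≤ v.ord (evalF A y g * f) := by
  classical
  have hne : ∀ g : Polynomial A, (g.map (IsLocalRing.residue A)).eval c ≠ 0 →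
      evalF A y g ≠ 0 := by
    intro g hg
    refine (HE.evalF hYy g).ne_zero ?_
    intro h0
    have h1 : g.map (IsLocalRing.residue A) = 0 := by
      by_contra h2
      exact hYt ⟨_, h2, h0⟩
    rw [h1, Polynomial.eval_zero] at hg
    exact hg rfl
  have key : ∀ P : Pl N, ∃ g : Polynomial A, 0 ≤ P.ord y → ¬ Tube A N y c P →
      (g.map (IsLocalRing.residue A)).eval c ≠ 0 ∧ 0 < P.ord (evalF A y g) := by
    intro P
    by_cases h : 0 ≤ P.ord y ∧ ¬ Tube A N y c P
    · obtain ⟨g, hg⟩ := exists_fac hy c P h.1 h.2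
      exact ⟨g, fun _ _ => hg⟩
    · exact ⟨0, fun h1 h2 => absurd ⟨h1, h2⟩ h⟩
  choose gP hgP using key
  set T : Finset (Pl N) := (FF.finite_ord_ne_zero f).toFinset.filter
    (fun v => v.ord f < 0 ∧ 0 ≤ v.ord y) with hT
  have hmemT : ∀ v : Pl N, v ∈ T ↔ v.ord f < 0 ∧ 0 ≤ v.ord y := by
    intro v
    rw [hT, Finset.mem_filter, Set.Finite.mem_toFinset]
    constructor
    · exact fun h => h.2
    · exact fun h => ⟨ne_of_lt h.1, h⟩
  have hT1 : ∀ v ∈ T, (((gP v).map (IsLocalRing.residue A)).eval c ≠ 0 ∧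
      0 < v.ord (evalF A y (gP v))) := by
    intro v hv
    refine hgP v ((hmemT v).1 hv).2 ?_
    intro h
    have := htube v h
    have := ((hmemT v).1 hv).1
    omega
  have hg1 : ((∏ v ∈ T, gP v ^ (- v.ord f).toNat).map (IsLocalRing.residue A)).eval c ≠ 0 := by
    rw [Polynomial.map_prod, Polynomial.eval_prod]
    refine Finset.prod_ne_zero_iff.2 fun v hv => ?_
    rw [Polynomial.map_pow, Polynomial.eval_pow]
    exact pow_ne_zero _ (hT1 v hv).1
  refine ⟨∏ v ∈ T, gP v ^ (- v.ord f).toNat, hg1, hne _ hg1, ?_⟩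
  intro v hv
  rw [v.ord_mul (hne _ hg1) hf]
  have h0 : 0 ≤ v.ord (evalF A y (∏ v ∈ T, gP v ^ (- v.ord f).toNat)) := ord_evalF_nonneg v hv _
  by_cases hvf : 0 ≤ v.ord f
  · omega
  · have hvT : v ∈ T := (hmemT v).2 ⟨by omega, hv⟩
    rw [← Finset.mul_prod_erase T _ hvT, map_mul, map_pow,
      v.ord_mul (pow_ne_zero _ (hne _ (hT1 v hvT).1)), FF.ord_pow]
    · have h1 : 0 ≤ v.ord (evalF A y (∏ w ∈ T.erase v, gP w ^ (- w.ord f).toNat)) :=
        ord_evalF_nonneg v hv _
      have h2 := (hT1 v hvT).2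
      have h3 : (((- v.ord f).toNat : ℕ) : ℤ) = - v.ord f := Int.toNat_of_nonneg (by omega)
      rw [h3]
      nlinarith
    · apply hne
      rw [Polynomial.map_prod, Polynomial.eval_prod]
      refine Finset.prod_ne_zero_iff.2 fun w hw => ?_
      rw [Polynomial.map_pow, Polynomial.eval_pow]
      exact pow_ne_zero _ (hT1 w (Finset.mem_of_mem_erase hw)).1

end Clear

end Tube

variable (A : ValuationSubring Kbar) (N : ℕ) [NeZero N]

/-- **The tube lemma.** -/
theorem tubeStmt (y : FN N) (hy : Transcendental Kbar y)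
    (hYt : ∀ Y : LaurentSeries A, HasIntExp A N y Y → Transcendental (kA A) (rho A Y))
    (hQ : QAY A N y) (hR : RegInt Kbar (FN N)) : TubeStmt A N y := by
  classical
  intro Yy hYy f a₁ a₂ Y₁ Y₂ hf h₁ h₂ hρ₁ hρ₂ D hD c hLF hsum
  have hE₁ : Tube.HE A N a₁ (rho A Y₁) := ⟨Y₁, h₁, rfl⟩
  have hE₂ : Tube.HE A N a₂ (rho A Y₂) := ⟨Y₂, h₂, rfl⟩
  have ha₁ : a₁ ≠ 0 := hE₁.ne_zero hρ₁
  have ha₂ : a₂ ≠ 0 := hE₂.ne_zero hρ₂
  have hf0 : f ≠ 0 := by
    rintro rfl
    rw [zero_mul] at hf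
    exact ha₁ hf.symm
  obtain ⟨sp, sm, τ, hτ, hsp, hsm, hord⟩ := Tube.exists_split y c hLF (fun P => D P)
    (D.support.filter (fun P => Tube A N y c P))
    (by intro P; rw [Finset.mem_filter, Finsupp.mem_support_iff])
    (by
      intro e
      rw [Finset.filter_filter]
      convert hsum e)
  have hsp0 := hsp.ne_zero hτ
  have hsm0 := hsm.ne_zero hτ
  have hf'0 : f * sm / sp ≠ 0 := div_ne_zero (mul_ne_zero hf0 hsm0) hsp0
  have htube : ∀ P, Tube A N y c P → 0 ≤ P.ord (f * sm / sp) := by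
    intro P hP
    rw [div_eq_mul_inv, P.ord_mul (mul_ne_zero hf0 hsm0) (inv_ne_zero hsp0), P.ord_mul hf0 hsm0,
      P.ord_inv, (hord P hP).1, (hord P hP).2, ← hD]
    omega
  obtain ⟨g, hg, hg0, hreg⟩ := Tube.exists_clear hy hYy (hYt Yy hYy) c _ hf'0 htube
  have hint := hR y hy _ hreg
  obtain ⟨c', z', Y', hc', hz, hz'B, hz'Y, hρ'⟩ := hQ.2 _ (mul_ne_zero hg0 hf'0) hint
  have hE' : Tube.HE A N z' (rho A Y') := ⟨Y', hz'Y, rfl⟩
  have hEg := Tube.HE.evalF hYy g
  have hid : Tube.evalF A y g * a₁ * sm = algebraMap Kbar (FN N) c' * z' * a₂ * sp := by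
    rw [← hz, ← hf]
    field_simp
  have hc'F : algebraMap Kbar (FN N) c' ≠ 0 := by
    rw [Ne, map_eq_zero]
    exact hc'
  have hc'A : c' ∈ A := by
    by_contra hcon
    have hinv : c'⁻¹ ∈ A.nonunits := (ValuationSubring.inv_mem_nonunits_iff A).2 (Or.inr hcon)
    have e : z' * a₂ * sp = algebraMap Kbar (FN N) c'⁻¹ * (Tube.evalF A y g * a₁ * sm) := by
      rw [hid, map_inv₀]
      field_simp
    have h1 := (hE'.mul hE₂).mul hsp
    have h2 := (Tube.HE.const (N := N) (ValuationSubring.nonunits_subset hinv)).mul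
      ((hEg.mul hE₁).mul hsm)
    rw [← e, resA_of_mem_nonunits hinv, HahnSeries.single_eq_zero, zero_mul] at h2
    exact mul_ne_zero (mul_ne_zero hρ' hρ₂) hτ (h1.unique h2)
  obtain ⟨Yb, hYb, -⟩ := (Tube.HE.const (N := N) hc'A).mul hE'
  refine ⟨g, algebraMap Kbar (FN N) c' * z', Yb, hg, mul_mem (Tube.const_mem_BY hc'A) hz'B, hYb, ?_⟩
  have h1 := (hEg.mul hE₁).mul hsm
  have h2 := (Tube.HE.mul (⟨Yb, hYb, rfl⟩ : Tube.HE A N _ (rho A Yb)) hE₂).mul hsp
  rw [hid] at h1
  exact mul_right_cancel₀ hτ (h1.unique h2)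

end Fermat.Agent.S37

end
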