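import Fermat.Agent.S37.C0.Defs
import Fermat.Agent.S37.Val
import Fermat.Agent.S28.QEPMid
import Fermat.Agent.S24.Formal

/-!
# S37, block C0: basic API for a general coordinate `y`  (task S37-C0-Basic, helper187)

* series: `coeffMap_aeval`, `HasIntExp.add/.mul/.sub/.neg/.pow/.prod/.sum/.const/.aeval/.unique`,
  `rhoHom`, `rho_*`, `rho_eq_zero_of_nonunits`, `gauss_unit`, `HasIntExp.gauss_unit`
* the rings `RY ≤ BY`: `algebraMap_mem_BY`, `self_mem_BY`, `aeval_mem_BY`, `isIntegral_adjoin_of_mem_BY`
* `mem_of_reg`, `evB`, `epsHom`, `epsHom_surjective`, `eps_const`, `eps_aeval`, `eps_eq_of_ker_eq`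
* `not_inFin_iff`, `red_eq_inl_eps`, `red_eq_inr_eps`
* `exists_hasIntExp_jF`, `exists_hasIntExp_jF_inv`, `isAlgClosed_kA`
-/

set_option autoImplicit false
set_option linter.unusedSectionVars false

noncomputable section

namespace Fermat.Agent.S37

open AlgebraicCurve ModularCurve Fermat.Agent.S24

/-! ## Laurent series -/

section Series

variable {R S : Type*} [CommRing R] [CommRing S]

theorem C0.coeffMap_injective {f : R →+* S} (hf : Function.Injective f) :
    Function.Injective (coeffMap f) := by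
  intro x y h
  ext k
  apply hf
  have := congrArg (fun z => HahnSeries.coeff z k) h
  simpa using this

theorem C0.algebraMap_eq_single (r : R) :
    algebraMap R (LaurentSeries R) r = HahnSeries.single 0 r := by
  have h1 : algebraMap R (PowerSeries R) r = PowerSeries.C r := by simp
  rw [HahnSeries.algebraMap_apply', h1, HahnSeries.ofPowerSeries_C]
  rfl

theorem C0.coeffMap_algebraMap (f : R →+* S) (r : R) :
    coeffMap f (algebraMap R (LaurentSeries R) r) = algebraMap S (LaurentSeries S) (f r) := by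
  rw [C0.algebraMap_eq_single, C0.algebraMap_eq_single, coeffMap_single]

/-- `coeffMap` commutes with the evaluation of polynomials -/
theorem coeffMap_aeval (f : R →+* S) (Y : LaurentSeries R) (g : Polynomial R) :
    coeffMap f (Polynomial.aeval Y g) = Polynomial.aeval (coeffMap f Y) (g.map f) := by
  rw [Polynomial.aeval_def, Polynomial.aeval_def, Polynomial.hom_eval₂, Polynomial.eval₂_map]
  congr 1
  exact RingHom.ext fun r => C0.coeffMap_algebraMap f r

theorem C0.transcendental_jqModC (k : Type*) [Field k] : Transcendental k (jqModC k) := by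
  rintro ⟨p, hp, h0⟩
  have h : (Polynomial.aeval (jqModC k) p).coeff (-(p.natDegree : ℤ)) = p.leadingCoeff := by
    rw [Polynomial.aeval_eq_sum_range, HahnSeries.coeff_sum, Finset.sum_range_succ,
      Finset.sum_eq_zero, zero_add]
    · rw [Algebra.smul_def, C0.algebraMap_eq_single, HahnSeries.coeff_single_zero_mul,
        coeff_jqModC_pow_self, mul_one, Polynomial.leadingCoeff]
    · intro i hi
      rw [Finset.mem_range] at hi
      rw [Algebra.smul_def, C0.algebraMap_eq_single, HahnSeries.coeff_single_zero_mul,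
        coeff_jqModC_pow_of_lt k (by omega), mul_zero]
  rw [h0, HahnSeries.coeff_zero] at h
  exact hp (Polynomial.leadingCoeff_eq_zero.mp h.symm)

end Series

variable {A : ValuationSubring Kbar} {N : ℕ}

/-! ## `rho` -/

variable (A) in
/-- `rho` as a ring homomorphism -/
def rhoHom : LaurentSeries A →+* LaurentSeries (kA A) := coeffMap (IsLocalRing.residue A)

@[simp] theorem rhoHom_apply (Y : LaurentSeries A) : rhoHom A Y = rho A Y := rfl

theorem rho_zero : rho A 0 = 0 := map_zero (rhoHom A)
theorem rho_one : rho A 1 = 1 := map_one (rhoHom A)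
theorem rho_add (Y Z : LaurentSeries A) : rho A (Y + Z) = rho A Y + rho A Z := map_add (rhoHom A) Y Z
theorem rho_mul (Y Z : LaurentSeries A) : rho A (Y * Z) = rho A Y * rho A Z := map_mul (rhoHom A) Y Z
theorem rho_neg (Y : LaurentSeries A) : rho A (-Y) = - rho A Y := map_neg (rhoHom A) Y
theorem rho_sub (Y Z : LaurentSeries A) : rho A (Y - Z) = rho A Y - rho A Z := map_sub (rhoHom A) Y Z
theorem rho_pow (Y : LaurentSeries A) (n : ℕ) : rho A (Y ^ n) = rho A Y ^ n := map_pow (rhoHom A) Y n
theorem rho_prod {ι : Type*} (s : Finset ι) (Y : ι → LaurentSeries A) :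
    rho A (∏ i ∈ s, Y i) = ∏ i ∈ s, rho A (Y i) := map_prod (rhoHom A) Y s
theorem rho_sum {ι : Type*} (s : Finset ι) (Y : ι → LaurentSeries A) :
    rho A (∑ i ∈ s, Y i) = ∑ i ∈ s, rho A (Y i) := map_sum (rhoHom A) Y s

theorem rho_single (k : ℤ) (a : A) :
    rho A (HahnSeries.single k a) = HahnSeries.single k (IsLocalRing.residue A a) :=
  coeffMap_single _ k a

theorem rho_coeff (Y : LaurentSeries A) (k : ℤ) :
    (rho A Y).coeff k = IsLocalRing.residue A (Y.coeff k) := rfl

theorem rho_aeval (Y : LaurentSeries A) (g : Polynomial A) :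
    rho A (Polynomial.aeval Y g) =
      Polynomial.aeval (rho A Y) (g.map (IsLocalRing.residue A)) :=
  coeffMap_aeval _ Y g

/-- `rho Y = 0` iff all the coefficients are in the maximal ideal -/
theorem rho_eq_zero_iff (Y : LaurentSeries A) :
    rho A Y = 0 ↔ ∀ k : ℤ, ((Y.coeff k : A) : Kbar) ∈ A.nonunits := by
  constructor
  · intro h k
    have h1 : IsLocalRing.residue A (Y.coeff k) = 0 := by
      rw [← rho_coeff, h, HahnSeries.coeff_zero]
    rwa [IsLocalRing.residue_eq_zero_iff, ← ValuationSubring.coe_mem_nonunits_iff] at h1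
  · intro h
    ext k
    rw [rho_coeff, HahnSeries.coeff_zero, IsLocalRing.residue_eq_zero_iff,
      ← ValuationSubring.coe_mem_nonunits_iff]
    exact h k

/-! ## constants of `A` -/

theorem C0.inv_mem_of_not_mem_nonunits {c : Kbar} (h : c ∉ A.nonunits) : c⁻¹ ∈ A := by
  rw [ValuationSubring.mem_nonunits_iff, not_lt] at h
  rw [← ValuationSubring.valuation_le_one_iff, map_inv₀]
  exact inv_le_one_of_one_le₀ h

theorem C0.mul_mem_nonunits {a b : Kbar} (ha : a ∈ A.nonunits) (hb : b ∈ A) :
    a * b ∈ A.nonunits := by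
  rw [ValuationSubring.mem_nonunits_iff] at ha ⊢
  rw [← ValuationSubring.valuation_le_one_iff] at hb
  rw [map_mul]
  exact lt_of_le_of_lt (mul_le_of_le_one_right' hb) ha

theorem C0.residue_eq_zero_of_nonunits {c : Kbar} (hc : c ∈ A.nonunits) :
    IsLocalRing.residue A ⟨c, A.nonunits_subset hc⟩ = 0 := by
  rw [IsLocalRing.residue_eq_zero_iff, ← ValuationSubring.coe_mem_nonunits_iff]
  exact hc

theorem C0.resA_eval (p : Polynomial A) (a : A) :
    resA A ((p.map A.subtype).eval (a : Kbar)) =
      (p.map (IsLocalRing.residue A)).eval (IsLocalRing.residue A a) := by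
  have h : Polynomial.eval₂ A.subtype (a : Kbar) p = ((p.eval a : A) : Kbar) :=
    Polynomial.eval₂_at_apply A.subtype a
  rw [Polynomial.eval_map, Polynomial.eval_map, Polynomial.eval₂_at_apply, h, resA_coe]

/-- a constant of the maximal ideal times an integral series has reduction `0` -/
theorem rho_eq_zero_of_nonunits {c : Kbar} (hc : c ∈ A.nonunits) {Y Y' : LaurentSeries A}
    (h : algebraMap Kbar (LaurentSeries Kbar) c * coeffMap A.subtype Y = coeffMap A.subtype Y') :
    rho A Y' = 0 := by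
  have h1 : Y' = HahnSeries.single 0 (⟨c, A.nonunits_subset hc⟩ : A) * Y := by
    apply C0.coeffMap_injective (f := A.subtype) Subtype.val_injective
    rw [← h, map_mul, coeffMap_single, C0.algebraMap_eq_single]
    rfl
  rw [h1, rho_mul, rho_single, C0.residue_eq_zero_of_nonunits hc, HahnSeries.single_eq_zero,
    zero_mul]

/-- **Gauss lemma for constants**: a constant relating two integral series with nonzero reduction
is a unit of `A`. -/
theorem gauss_unit {c : Kbar} {Y Y' : LaurentSeries A}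
    (h : algebraMap Kbar (LaurentSeries Kbar) c * coeffMap A.subtype Y = coeffMap A.subtype Y')
    (hY : rho A Y ≠ 0) (hY' : rho A Y' ≠ 0) : c ∈ A ∧ c⁻¹ ∈ A := by
  have h1 : c ∉ A.nonunits := fun hc => hY' (rho_eq_zero_of_nonunits hc h)
  have hc0 : c ≠ 0 := fun h0 => h1 (h0 ▸ zero_mem _)
  have h2 : c⁻¹ ∉ A.nonunits := by
    intro hc
    refine hY (rho_eq_zero_of_nonunits hc (Y := Y') ?_)
    rw [← h, ← mul_assoc, ← map_mul, inv_mul_cancel₀ hc0, map_one, one_mul]
  refine ⟨?_, C0.inv_mem_of_not_mem_nonunits h1⟩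
  have := C0.inv_mem_of_not_mem_nonunits h2
  rwa [inv_inv] at this

/-! ## `HasIntExp` -/

namespace HasIntExp

variable {f g : FN N} {Y Z : LaurentSeries A}

theorem unique (hf : HasIntExp A N f Y) (hg : HasIntExp A N f Z) : Y = Z :=
  C0.coeffMap_injective (f := A.subtype) Subtype.val_injective (hf.trans hg.symm)

/-- the function is determined by its expansion -/
theorem unique_left (hf : HasIntExp A N f Y) (hg : HasIntExp A N g Y) : f = g :=
  Subtype.ext (hf.symm.trans hg)

theorem zero : HasIntExp A N 0 0 := map_zero (coeffMap A.subtype)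

theorem one : HasIntExp A N 1 1 := map_one (coeffMap A.subtype)

theorem add (hf : HasIntExp A N f Y) (hg : HasIntExp A N g Z) : HasIntExp A N (f + g) (Y + Z) := by
  unfold HasIntExp at *
  rw [map_add, hf, hg]
  rfl

theorem mul (hf : HasIntExp A N f Y) (hg : HasIntExp A N g Z) : HasIntExp A N (f * g) (Y * Z) := by
  unfold HasIntExp at *
  rw [map_mul, hf, hg]
  rfl

theorem neg (hf : HasIntExp A N f Y) : HasIntExp A N (-f) (-Y) := by
  unfold HasIntExp at *
  rw [map_neg, hf]
  rfl

theorem sub (hf : HasIntExp A N f Y) (hg : HasIntExp A N g Z) : HasIntExp A N (f - g) (Y - Z) := by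
  unfold HasIntExp at *
  rw [map_sub, hf, hg]
  rfl

theorem pow (hf : HasIntExp A N f Y) (n : ℕ) : HasIntExp A N (f ^ n) (Y ^ n) := by
  induction n with
  | zero => simpa using (one : HasIntExp A N 1 1)
  | succ n ih => rw [pow_succ, pow_succ]; exact ih.mul hf

theorem prod {ι : Type*} (s : Finset ι) {f : ι → FN N} {Y : ι → LaurentSeries A}
    (h : ∀ i ∈ s, HasIntExp A N (f i) (Y i)) : HasIntExp A N (∏ i ∈ s, f i) (∏ i ∈ s, Y i) := by
  classical
  induction s using Finset.induction_on with
  | empty => simpa using (one : HasIntExp A N 1 1)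
  | insert i s hi ih =>
    rw [Finset.prod_insert hi, Finset.prod_insert hi]
    exact (h i (Finset.mem_insert_self i s)).mul (ih fun j hj => h j (Finset.mem_insert_of_mem hj))

theorem sum {ι : Type*} (s : Finset ι) {f : ι → FN N} {Y : ι → LaurentSeries A}
    (h : ∀ i ∈ s, HasIntExp A N (f i) (Y i)) : HasIntExp A N (∑ i ∈ s, f i) (∑ i ∈ s, Y i) := by
  classical
  induction s using Finset.induction_on with
  | empty => simpa using (zero : HasIntExp A N 0 0)
  | insert i s hi ih =>
    rw [Finset.sum_insert hi, Finset.sum_insert hi]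
    exact (h i (Finset.mem_insert_self i s)).add (ih fun j hj => h j (Finset.mem_insert_of_mem hj))

variable (N) in
theorem const (a : A) :
    HasIntExp A N (algebraMap Kbar (FN N) (a : Kbar)) (HahnSeries.single 0 a) := by
  unfold HasIntExp
  rw [coeffMap_single]
  exact (C0.algebraMap_eq_single (a : Kbar)).symm

variable (N) in
theorem const' (a : A) :
    HasIntExp A N (algebraMap Kbar (FN N) (a : Kbar)) (algebraMap A (LaurentSeries A) a) := by
  rw [C0.algebraMap_eq_single]
  exact const N a

variable (N) in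
theorem const_mem {a : Kbar} (ha : a ∈ A) :
    HasIntExp A N (algebraMap Kbar (FN N) a) (HahnSeries.single 0 (⟨a, ha⟩ : A)) :=
  const N (⟨a, ha⟩ : A)

/-- expansion of a polynomial in `f` with coefficients in `A` -/
theorem aeval (hf : HasIntExp A N f Y) (p : Polynomial A) :
    HasIntExp A N (Polynomial.aeval f (p.map A.subtype)) (Polynomial.aeval Y p) := by
  unfold HasIntExp at *
  rw [coeffMap_aeval, hf]
  exact Polynomial.aeval_algHom_apply (modularFunctionFieldBar N).val f (p.map A.subtype)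

theorem eq_zero_iff (hf : HasIntExp A N f Y) : f = 0 ↔ Y = 0 :=
  ⟨fun h => (h ▸ hf).unique zero, fun h => (h ▸ hf).unique_left zero⟩

/-- **Gauss lemma for constants**, for functions. -/
theorem gauss_unit (hf : HasIntExp A N f Y) (hg : HasIntExp A N g Z) {c : Kbar}
    (h : g = algebraMap Kbar (FN N) c * f) (hY : rho A Y ≠ 0) (hZ : rho A Z ≠ 0) :
    c ∈ A ∧ c⁻¹ ∈ A := by
  refine Fermat.Agent.S37.gauss_unit (Y := Y) (Y' := Z) ?_ hY hZ
  rw [show coeffMap A.subtype Y = (f : LaurentSeries Kbar) from hf,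
    show coeffMap A.subtype Z = (g : LaurentSeries Kbar) from hg, h]
  rfl

/-- if `g = c f`, `c ∈ 𝔪_A`, then the reduction of `g` is `0` -/
theorem rho_eq_zero (hf : HasIntExp A N f Y) (hg : HasIntExp A N g Z) {c : Kbar}
    (h : g = algebraMap Kbar (FN N) c * f) (hc : c ∈ A.nonunits) : rho A Z = 0 := by
  refine rho_eq_zero_of_nonunits hc (Y := Y) ?_
  rw [show coeffMap A.subtype Y = (f : LaurentSeries Kbar) from hf,
    show coeffMap A.subtype Z = (g : LaurentSeries Kbar) from hg, h]
  rfl

end HasIntExp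

/-! ## the rings `RY ≤ BY` -/

section Rings

variable {y : FN N}

theorem mem_BY_iff {b : FN N} : b ∈ BY A N y ↔ IsIntegral (RY A N y) b := Iff.rfl

theorem algebraMap_mem_RY {a : Kbar} (ha : a ∈ A) : algebraMap Kbar (FN N) a ∈ RY A N y :=
  Subring.subset_closure (Or.inl ⟨a, ha, rfl⟩)

theorem self_mem_RY : y ∈ RY A N y := Subring.subset_closure (Or.inr rfl)

theorem RY_le_BY : RY A N y ≤ BY A N y := fun x hx =>
  mem_BY_iff.mpr (isIntegral_algebraMap (R := RY A N y) (x := ⟨x, hx⟩))

theorem algebraMap_mem_BY {a : Kbar} (ha : a ∈ A) : algebraMap Kbar (FN N) a ∈ BY A N y :=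
  RY_le_BY (algebraMap_mem_RY ha)

theorem self_mem_BY : y ∈ BY A N y := RY_le_BY self_mem_RY

theorem aeval_mem_RY (p : Polynomial A) : Polynomial.aeval y (p.map A.subtype) ∈ RY A N y := by
  rw [Polynomial.aeval_eq_sum_range]
  refine sum_mem fun i _ => ?_
  rw [Algebra.smul_def, Polynomial.coeff_map]
  exact mul_mem (algebraMap_mem_RY (p.coeff i).2) (pow_mem self_mem_RY i)

theorem aeval_mem_BY (p : Polynomial A) : Polynomial.aeval y (p.map A.subtype) ∈ BY A N y :=
  RY_le_BY (aeval_mem_RY p)

/-- every element of `A[y]` is a polynomial in `y` -/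
theorem exists_aeval_of_mem_RY {b : FN N} (hb : b ∈ RY A N y) :
    ∃ p : Polynomial A, b = Polynomial.aeval y (p.map A.subtype) := by
  induction hb using Subring.closure_induction with
  | mem x hx =>
    rcases hx with ⟨a, ha, rfl⟩ | rfl
    · exact ⟨Polynomial.C ⟨a, ha⟩, by simp⟩
    · exact ⟨Polynomial.X, by simp⟩
  | zero => exact ⟨0, by simp⟩
  | one => exact ⟨1, by simp⟩
  | add x z _ _ hx hz =>
    obtain ⟨p, rfl⟩ := hx
    obtain ⟨q, rfl⟩ := hz
    exact ⟨p + q, by simp⟩
  | neg x _ hx =>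
    obtain ⟨p, rfl⟩ := hx
    exact ⟨-p, by simp⟩
  | mul x z _ _ hx hz =>
    obtain ⟨p, rfl⟩ := hx
    obtain ⟨q, rfl⟩ := hz
    exact ⟨p * q, by simp⟩

theorem RY_le_adjoin : RY A N y ≤ (Algebra.adjoin Kbar {y}).toSubring := by
  unfold RY
  rw [Subring.closure_le]
  rintro x (⟨a, _, rfl⟩ | rfl)
  · exact Subalgebra.algebraMap_mem _ a
  · exact Algebra.subset_adjoin rfl

/-- a function integral over `A[y]` is integral over `ℚ̄[y]` -/
theorem isIntegral_adjoin_of_mem_BY {b : FN N} (hb : b ∈ BY A N y) :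
    IsIntegral (Algebra.adjoin Kbar {y}) b := by
  obtain ⟨p, hp, hpe⟩ := mem_BY_iff.mp hb
  let φ : RY A N y →+* Algebra.adjoin Kbar {y} :=
    (RY A N y).subtype.codRestrict (Algebra.adjoin Kbar {y}) (fun a => RY_le_adjoin a.2)
  refine ⟨p.map φ, hp.map φ, ?_⟩
  rw [Polynomial.eval₂_map]
  exact hpe

end Rings

/-! ## regions, evaluation -/

section Basic

variable [NeZero N]

theorem RY_le_compRing {y : FN N} {P : Pl N} (hP : Reg A N y P) :
    RY A N y ≤ (compRing A P).toSubring := by
  unfold RY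
  rw [Subring.closure_le]
  rintro x (⟨a, ha, rfl⟩ | rfl)
  · exact algebraMap_mem_compRing ha
  · exact hP

theorem mem_of_reg {y b : FN N} {P : Pl N} (hP : Reg A N y P) (hb : b ∈ BY A N y) :
    0 ≤ P.ord b ∧ val P b ∈ A :=
  mem_valuationSubring_of_isIntegral (compRing A P) (RY A N y) (RY_le_compRing hP) hb

theorem evB {y : FN N} (hQ : QAY A N y) {z : FN N} {Y : LaurentSeries A} (hz : z ∈ BY A N y)
    (hY : HasIntExp A N z Y) (h0 : rho A Y = 0) {P : Pl N} (hP : Reg A N y P) :
    val P z ∈ A.nonunits := by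
  rcases eq_or_ne z 0 with rfl | hz0
  · rw [val_zero]
    exact zero_mem _
  obtain ⟨c, z', Y', hc0, hzz', hz', hY', hρ⟩ := hQ.2 z hz0 (isIntegral_adjoin_of_mem_BY hz)
  have hc : c ∈ A.nonunits := by
    by_contra hcon
    have hinv := C0.inv_mem_of_not_mem_nonunits hcon
    have hz'2 : z' = algebraMap Kbar (FN N) c⁻¹ * z := by
      rw [hzz', ← mul_assoc, ← map_mul, inv_mul_cancel₀ hc0, map_one, one_mul]
    have h1 : HasIntExp A N z' (HahnSeries.single 0 (⟨c⁻¹, hinv⟩ : A) * Y) := by
      rw [hz'2]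
      exact (HasIntExp.const_mem N hinv).mul hY
    apply hρ
    rw [hY'.unique h1, rho_mul, h0, mul_zero]
  obtain ⟨h1, h2⟩ := mem_of_reg hP hz'
  rw [hzz', val_mul (ord_algebraMap_nonneg c) h1, val_algebraMap]
  exact C0.mul_mem_nonunits hc h2

theorem not_inFin_iff (P : Pl N) : ¬ InFin A N P ↔ Tube A N (jF N)⁻¹ 0 P := by
  constructor
  · intro hP
    obtain ⟨h1, h2⟩ := jF_inv_of_not_inFin hP
    exact ⟨⟨h1, A.nonunits_subset h2⟩, resA_of_mem_nonunits h2⟩
  · rintro ⟨⟨h1, h2⟩, h3⟩
    have h4 : (jF N)⁻¹ ∈ (compRing A P).nonunits :=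
      mem_nonunits_compRing.mpr ⟨h1, (resA_eq_zero_iff h2).mp h3⟩
    rw [ValuationSubring.inv_mem_nonunits_iff] at h4
    rcases h4 with h4 | h4
    · exact absurd (h4 ▸ isAlgebraic_zero) (Formal.transcendental_jF N)
    · exact h4

/-- (`red_of_inFin` of the skeleton; this name is already used in `Val.lean`) -/
theorem red_eq_inl_eps {P : Pl N} (hP : InFin A N P) :
    red A N P = Sum.inl (eps A N (jF N) P) := red_of_inFin hP

/-- (`red_of_not_inFin` of the skeleton; this name is already used in `Val.lean`) -/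
theorem red_eq_inr_eps {P : Pl N} (hP : ¬ InFin A N P) :
    red A N P = Sum.inr (eps A N (jF N)⁻¹ P) := red_of_not_inFin hP

/-! ### `eps` is a ring homomorphism -/

omit [NeZero N] in
theorem eps_apply (y : FN N) (P : Pl N) (b : BY A N y) : eps A N y P b = resA A (val P b.1) := rfl

/-- evaluation at `P` followed by reduction, in the chart `y` -/
def epsHom {y : FN N} {P : Pl N} (hP : Reg A N y P) : BY A N y →+* kA A where
  toFun := eps A N y P
  map_one' := by
    show resA A (val P (1 : FN N)) = 1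
    rw [val_one, resA_one]
  map_mul' b c := by
    obtain ⟨h1, h2⟩ := mem_of_reg hP b.2
    obtain ⟨h3, h4⟩ := mem_of_reg hP c.2
    show resA A (val P (b.1 * c.1)) = _
    rw [val_mul h1 h3, resA_mul h2 h4]
    rfl
  map_zero' := by
    show resA A (val P (0 : FN N)) = 0
    rw [val_zero, resA_zero]
  map_add' b c := by
    obtain ⟨h1, h2⟩ := mem_of_reg hP b.2
    obtain ⟨h3, h4⟩ := mem_of_reg hP c.2
    show resA A (val P (b.1 + c.1)) = _
    rw [val_add h1 h3, resA_add h2 h4]
    rfl

variable {y : FN N} {P P' : Pl N}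

@[simp] theorem coe_epsHom (hP : Reg A N y P) : ⇑(epsHom hP) = eps A N y P := rfl

theorem epsHom_apply (hP : Reg A N y P) (b : BY A N y) : epsHom hP b = resA A (val P b.1) := rfl

omit [NeZero N] in
theorem eps_const {a : Kbar} (ha : a ∈ A) :
    eps A N y P ⟨algebraMap Kbar (FN N) a, algebraMap_mem_BY ha⟩ = resA A a := by
  rw [eps_apply, val_algebraMap]

omit [NeZero N] in
theorem eps_self : eps A N y P ⟨y, self_mem_BY⟩ = resA A (val P y) := rfl

omit [NeZero N] in
theorem eps_surjective : Function.Surjective (eps A N y P) := by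
  intro x
  obtain ⟨a, ha, rfl⟩ := exists_mem_resA_eq A x
  exact ⟨⟨algebraMap Kbar (FN N) a, algebraMap_mem_BY ha⟩, eps_const ha⟩

theorem epsHom_surjective (hP : Reg A N y P) : Function.Surjective (epsHom hP) := eps_surjective

/-- the value of a polynomial in `y` -/
theorem val_aeval (hP : 0 ≤ P.ord y) (p : Polynomial Kbar) :
    0 ≤ P.ord (Polynomial.aeval y p) ∧ val P (Polynomial.aeval y p) = p.eval (val P y) := by
  have h : ∀ i ∈ Finset.range (p.natDegree + 1),
      0 ≤ P.ord (algebraMap Kbar (FN N) (p.coeff i) * y ^ i) := fun i _ =>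
    ord_mul_nonneg (ord_algebraMap_nonneg _) (ord_pow_nonneg hP i)
  simp only [Polynomial.aeval_eq_sum_range, Algebra.smul_def]
  refine ⟨ord_sum_nonneg _ _ h, ?_⟩
  rw [val_sum _ _ h, Polynomial.eval_eq_sum_range]
  refine Finset.sum_congr rfl fun i _ => ?_
  rw [val_mul (ord_algebraMap_nonneg _) (ord_pow_nonneg hP i), val_algebraMap, val_pow hP]

/-- reduction of the value of a polynomial in `y` with coefficients in `A` -/
theorem eps_aeval (hP : Reg A N y P) (p : Polynomial A) :
    eps A N y P ⟨Polynomial.aeval y (p.map A.subtype), aeval_mem_BY p⟩ =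
      (p.map (IsLocalRing.residue A)).eval (resA A (val P y)) := by
  rw [eps_apply, (val_aeval hP.1 _).2, resA_of_mem A hP.2]
  exact C0.resA_eval p ⟨val P y, hP.2⟩

/-- two reductions with the same kernel are equal -/
theorem eps_eq_of_ker_eq (hP : Reg A N y P) (hP' : Reg A N y P')
    (h : RingHom.ker (epsHom hP) = RingHom.ker (epsHom hP')) : eps A N y P = eps A N y P' := by
  funext b
  obtain ⟨a, ha, hab⟩ := exists_mem_resA_eq A (eps A N y P b)
  set c : BY A N y := ⟨algebraMap Kbar (FN N) a, algebraMap_mem_BY ha⟩ with hc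
  have h1 : b - c ∈ RingHom.ker (epsHom hP) := by
    rw [RingHom.mem_ker, map_sub, sub_eq_zero]
    show eps A N y P b = eps A N y P c
    rw [hc, eps_const ha, hab]
  rw [h, RingHom.mem_ker, map_sub, sub_eq_zero] at h1
  have h2 : eps A N y P' b = eps A N y P' c := h1
  rw [h2, hc, eps_const ha, hab]

theorem epsHom_eq_of_ker_eq (hP : Reg A N y P) (hP' : Reg A N y P')
    (h : RingHom.ker (epsHom hP) = RingHom.ker (epsHom hP')) : epsHom hP = epsHom hP' :=
  DFunLike.coe_injective (eps_eq_of_ker_eq hP hP' h)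

/-! ### tubes -/

omit [NeZero N] in
theorem Tube.reg {c : kA A} (h : Tube A N y c P) : Reg A N y P := h.1

omit [NeZero N] in
theorem Reg.tube (h : Reg A N y P) : Tube A N y (resA A (val P y)) P := ⟨h, rfl⟩

omit [NeZero N] in
/-- places with the same reduction are in the same tube -/
theorem Tube.of_eps_eq {c : kA A} (h : Tube A N y c P) (hP' : Reg A N y P')
    (he : eps A N y P = eps A N y P') : Tube A N y c P' := by
  refine ⟨hP', ?_⟩
  have := congrFun he ⟨y, self_mem_BY⟩
  rw [eps_self, eps_self] at this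
  rw [← this, h.2]

variable (A N)

/-! ### the expansions of `j` and `1/j` -/

omit [NeZero N] in
theorem hasIntExp_jF : HasIntExp A N (jF N) (jqModC A) := by
  unfold HasIntExp
  rw [coeffMap_jqModC]
  show jqModC Kbar = Jser 1
  rw [Formal.Jser_one, coeffEmb, ← jqModC_rat, coeffMap_jqModC]

omit [NeZero N] in
theorem rho_jqModC : rho A (jqModC A) = jqModC (kA A) := coeffMap_jqModC _

theorem exists_hasIntExp_jF :
    ∃ Y : LaurentSeries A, HasIntExp A N (jF N) Y ∧ Transcendental (kA A) (rho A Y) :=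
  ⟨jqModC A, hasIntExp_jF A N, by rw [rho_jqModC]; exact C0.transcendental_jqModC _⟩

omit [NeZero N] in
theorem hasIntExp_jF_inv : HasIntExp A N (jF N)⁻¹ (S28.QEPMid.jInvZ A) := by
  have h1 : coeffMap A.subtype (jqModC A) * coeffMap A.subtype (S28.QEPMid.jInvZ A) = 1 := by
    rw [← map_mul, S28.QEPMid.jqModC_mul_jInvZ, map_one]
  rw [show coeffMap A.subtype (jqModC A) = (jF N : LaurentSeries Kbar) from hasIntExp_jF A N] at h1
  unfold HasIntExp
  rw [eq_inv_of_mul_eq_one_right h1]
  rfl

omit [NeZero N] in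
theorem rho_jInvZ : rho A (S28.QEPMid.jInvZ A) = (jqModC (kA A))⁻¹ := by
  have h1 : rho A (jqModC A) * rho A (S28.QEPMid.jInvZ A) = 1 := by
    rw [← rho_mul, S28.QEPMid.jqModC_mul_jInvZ, rho_one]
  rw [rho_jqModC] at h1
  exact eq_inv_of_mul_eq_one_right h1

theorem exists_hasIntExp_jF_inv :
    ∃ Y : LaurentSeries A, HasIntExp A N (jF N)⁻¹ Y ∧ Transcendental (kA A) (rho A Y) := by
  refine ⟨S28.QEPMid.jInvZ A, hasIntExp_jF_inv A N, ?_⟩
  rw [rho_jInvZ]
  intro h
  exact C0.transcendental_jqModC (kA A) (by simpa using h.inv)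

omit [NeZero N] in
/-- the residue field of a valuation ring of `ℚ̄` is algebraically closed -/
theorem isAlgClosed_kA : IsAlgClosed (kA A) := by
  refine IsAlgClosed.of_exists_root _ fun p hp hirr => ?_
  obtain ⟨q, hq, hdeg, hqm⟩ := Polynomial.lifts_and_degree_eq_and_monic
    ((Polynomial.mem_lifts p).mpr (Polynomial.map_surjective _ IsLocalRing.residue_surjective p)) hp
  have hd : (q.map A.subtype).degree ≠ 0 := by
    rw [Polynomial.degree_map_eq_of_injective (f := A.subtype) Subtype.val_injective, hdeg]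
    exact (Polynomial.degree_pos_of_irreducible hirr).ne'
  obtain ⟨x, hx⟩ := IsAlgClosed.exists_root _ hd
  have hxint : IsIntegral A x := ⟨q, hqm, by rw [← Polynomial.eval_map]; exact hx⟩
  obtain ⟨a, rfl⟩ := IsIntegrallyClosed.isIntegral_iff.mp hxint
  refine ⟨IsLocalRing.residue A a, ?_⟩
  have h0 : q.eval a = 0 := by
    apply Subtype.val_injective
    have h : Polynomial.eval₂ A.subtype (a : Kbar) q = ((q.eval a : A) : Kbar) :=
      Polynomial.eval₂_at_apply A.subtype a
    rw [← h, ← Polynomial.eval_map]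
    exact hx
  rw [← hq, Polynomial.eval_map, Polynomial.eval₂_at_apply, h0, map_zero]

end Basic

end Fermat.Agent.S37

end
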