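import Fermat.Agent.S37.Nodes
import Fermat.Agent.S37.HeckeInputs.Main

/-!
# S37, block C0 (`RedConst`, `RedInj`): definitions and exact statements of the nodes
(owner helper37).  Everything is stated for a general coordinate `y` (`y = j` or `y = 1/j`).
-/

set_option autoImplicit false

noncomputable section

namespace Fermat.Agent.S37

open AlgebraicCurve ModularCurve Fermat.Agent.S24

variable (A : ValuationSubring Kbar) (N : ℕ)

/-- `A[y]` -/
def RY (y : FN N) : Subring (FN N) := Subring.closure (constSet A N ∪ {y})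

/-- shortcut instance (the search is slow otherwise) -/
instance instAlgebraRY (y : FN N) : Algebra (RY A N y) (FN N) := Algebra.ofSubsemiring (RY A N y)

/-- functions integral over `A[y]` -/
def BY (y : FN N) : Subring (FN N) := (integralClosure (RY A N y) (FN N)).toSubring

theorem BFin_eq_BY : BFin A N = BY A N (jF N) := rfl

theorem BInf_eq_BY : BInf A N = BY A N (jF N)⁻¹ := rfl

/-- the region `y(P) ∈ A` -/
def Reg (y : FN N) (P : Pl N) : Prop := 0 ≤ P.ord y ∧ val P y ∈ A

theorem inFin_iff_reg (P : Pl N) : InFin A N P ↔ Reg A N (jF N) P := Iff.rfl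

/-- the tube `y(P) ≡ c` -/
def Tube (y : FN N) (c : kA A) (P : Pl N) : Prop := Reg A N y P ∧ resA A (val P y) = c

/-- the reduction of a place in the chart `y` -/
def eps (y : FN N) (P : Pl N) : BY A N y → kA A := fun b => resA A (val P b.1)

/-- `q`-expansion principle for the chart `y` (`QAFin = QAY j`, `QAInf = QAY (1/j)`). -/
def QAY (y : FN N) : Prop :=
  (∀ b ∈ BY A N y, ∃ Y : LaurentSeries A, HasIntExp A N b Y) ∧
  (∀ z : FN N, z ≠ 0 → IsIntegral (Algebra.adjoin Kbar {y}) z →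
    ∃ (c : Kbar) (z' : FN N) (Y : LaurentSeries A), c ≠ 0 ∧ z = algebraMap Kbar (FN N) c * z' ∧
      z' ∈ BY A N y ∧ HasIntExp A N z' Y ∧ rho A Y ≠ 0)

theorem qaFin_iff : QAFin A N ↔ QAY A N (jF N) := Iff.rfl

theorem qaInf_iff : QAInf A N ↔ QAY A N (jF N)⁻¹ := Iff.rfl

/-- **LF at `P`** (smoothness of the reduction at the reduction of `P`): there is `t` integral over
`A[y]`, with nonzero reduction, `t(P) ∈ 𝔪_A`, such that for every `a ∈ 𝔪_A` the function `t - a`
has at most one zero, and it is simple, in the tube `y ≡ y(P)`. -/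
def LFAt (y : FN N) (P : Pl N) : Prop :=
  ∃ (t : FN N) (Y : LaurentSeries A),
    t ∈ BY A N y ∧ HasIntExp A N t Y ∧ rho A Y ≠ 0 ∧ val P t ∈ A.nonunits ∧
    ∀ a ∈ A.nonunits, ∀ P' : Pl N, Tube A N y (resA A (val P y)) P' →
      0 < P'.ord (t - algebraMap Kbar (FN N) a) →
        P'.ord (t - algebraMap Kbar (FN N) a) = 1 ∧
        ∀ P'' : Pl N, Tube A N y (resA A (val P y)) P'' →
          0 < P''.ord (t - algebraMap Kbar (FN N) a) → P'' = P'

/-- **LF**, both charts. -/
def LF : Prop :=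
  (∀ P : Pl N, Reg A N (jF N) P → LFAt A N (jF N) P) ∧
  (∀ P : Pl N, Tube A N (jF N)⁻¹ 0 P → LFAt A N (jF N)⁻¹ P)

open Classical in
/-- **Tube lemma**: let `f = a₁ / a₂` be normalised for the Gauss valuation.  If LF holds in the
tube `y ≡ c` and the divisor of `f` has degree `0` on every residue class of this tube, then
`g(ȳ) f̄ ∈ ρ(BY)` for some `g ∈ A[X]` with `ḡ(c) ≠ 0`. -/
def TubeStmt (y : FN N) : Prop :=
  ∀ (Yy : LaurentSeries A), HasIntExp A N y Yy →
  ∀ (f a₁ a₂ : FN N) (Y₁ Y₂ : LaurentSeries A), f * a₂ = a₁ → HasIntExp A N a₁ Y₁ →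
    HasIntExp A N a₂ Y₂ → rho A Y₁ ≠ 0 → rho A Y₂ ≠ 0 →
    ∀ (D : Divisor Kbar (FN N)), (∀ v, D v = v.ord f) → ∀ c : kA A,
    (∀ P, Tube A N y c P → LFAt A N y P) →
    (∀ e : BY A N y → kA A,
      ∑ P ∈ D.support.filter (fun P => Tube A N y c P ∧ eps A N y P = e), D P = 0) →
    ∃ (g : Polynomial A) (b : FN N) (Yb : LaurentSeries A),
      (g.map (IsLocalRing.residue A)).eval c ≠ 0 ∧ b ∈ BY A N y ∧ HasIntExp A N b Yb ∧
        Polynomial.aeval (rho A Yy) (g.map (IsLocalRing.residue A)) * rho A Y₁ =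
          rho A Yb * rho A Y₂

/-- **Fibre compatibility**: the reduction of the fibre of `X₀(N r) → X₀(N)` over `P` depends only
on the reduction of `P`. -/
def FibreCompat [NeZero N] (r : ℕ) [NeZero r] : Prop :=
  ∀ P P' : Pl N, red A N P = red A N P' →
    redDiv A (N * r) (Divisor.pullbackAlong (heckeAlphaBar Kbar N r)
        (HeckeInputs.alpha_integral N r) (Finsupp.single P 1)) =
      redDiv A (N * r) (Divisor.pullbackAlong (heckeAlphaBar Kbar N r)
        (HeckeInputs.alpha_integral N r) (Finsupp.single P' 1))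

/-- `(M, ℓ)` admits a base coordinate with good branch locus mod `ℓ` (`j`, `h₂`, `h₃`). -/
def GoodBase (M ℓ : ℕ) : Prop := 5 ≤ ℓ ∨ (ℓ = 3 ∧ 2 ∣ M) ∨ (ℓ = 2 ∧ 3 ∣ M)

end Fermat.Agent.S37

end
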